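import Fermat.Agent.Duality.Core.Functorial

/-!
# Inner automorphisms act trivially, and composition of conjugations in degree two
-/

set_option autoImplicit false

namespace FermatAgent.Duality

noncomputable section

variable {k G : Type*} [CommRing k] [Group G] (L : LevelSystem G)
variable {M : Type*} [AddCommGroup M] [Module k M] (ρ : Representation k G M)
variable (N : Subgroup G) [N.Normal]

omit L in
lemma conjInv_mul (g h : G) (n : N) : conjInv N (g * h) n = conjInv N h (conjInv N g n) :=
  Subtype.ext (by simp [conjInv, mul_assoc])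

theorem conj2_conj2 (g h : G) (x : H2c (L.comap N.subtype) (ρ.comp N.subtype)) :
    conj2 L ρ N g (conj2 L ρ N h x) = conj2 L ρ N (g * h) x := by
  simp only [conj2, map2_map2]
  exact map2_congr _ _ (fun n => (conjInv_mul N g h n).symm)
    (fun m => by simp [map_mul]) x

theorem conj1_of_mem {g : G} (hg : g ∈ N) (x : H1c (L.comap N.subtype) (ρ.comp N.subtype)) :
    conj1 L ρ N g x = x := by
  induction x using Submodule.Quotient.induction_on with
  | _ z =>
    set s : N := ⟨g, hg⟩
    refine (Submodule.Quotient.eq _).mpr ⟨z.1 s, funext fun u => ?_⟩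
    show dd₀ (ρ.comp N.subtype) _ u = ρ g (z.1 (conjInv N g u)) - z.1 u
    have h1 := z.2.2 s (conjInv N g u)
    rw [show s * conjInv N g u = u * s from Subtype.ext (by simp [conjInv, s, mul_assoc]),
      z.2.2] at h1
    simp only [dd₀_apply, MonoidHom.coe_comp, Subgroup.coe_subtype, Function.comp_apply] at h1 ⊢
    show _ = ρ ((s : N) : G) _ - _
    linear_combination (norm := abel) h1

theorem conj2_of_mem {g : G} (hg : g ∈ N) (x : H2c (L.comap N.subtype) (ρ.comp N.subtype)) :
    conj2 L ρ N g x = x := by
  induction x using Submodule.Quotient.induction_on with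
  | _ z =>
    set s : N := ⟨g, hg⟩
    let w : N → N := conjInv N g
    have hw : ∀ u, s * w u = u * s := fun u => Subtype.ext (by simp [w, conjInv, s, mul_assoc])
    let ζ : N → M := fun u => z.1 (u, s) - z.1 (s, w u)
    have hζ : IsLev₁ (L.comap N.subtype) ζ := by
      obtain ⟨_, ⟨W, hW, rfl⟩, h⟩ := z.2.1
      obtain ⟨V, hV, hle, hn⟩ := L.exists_normal hW
      refine ⟨_, ⟨V, hV, rfl⟩, fun u v hv => ?_⟩
      have hwv : w (u * v) = w u * w v := map_mul _ _ _
      have e1 := h u s v (hle hv) 1 (one_mem _)
      have e2 := h s (w u) 1 (one_mem _) (w v)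
        (hle (by simpa [w, conjInv] using hn.conj_mem _ hv g⁻¹))
      simp only [mul_one] at e1 e2
      simp only [ζ, hwv, e1, e2]
    refine (Submodule.Quotient.eq _).mpr
      ⟨fun u => -ζ u, hζ.comp (fun a => -a), funext fun q => ?_⟩
    obtain ⟨u, v⟩ := q
    show dd₁ (ρ.comp N.subtype) _ (u, v) = ρ ((s : N) : G) (z.1 (w u, w v)) - z.1 (u, v)
    have hc := z.2.2
    simp only [MonoidHom.coe_comp, Subgroup.coe_subtype, Function.comp_apply] at hc
    have h1 := hc s (w u) (w v)
    have h2 := hc u s (w v)
    have h3 := hc u v s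
    have hwm : w (u * v) = w u * w v := map_mul _ _ _
    rw [hw, ← hwm] at h1
    rw [hw] at h2
    simp only [dd₁_apply, ζ, MonoidHom.coe_comp, Subgroup.coe_subtype, Function.comp_apply,
      map_sub, map_neg]
    linear_combination (norm := abel) h1 - h2 + h3

end

end FermatAgent.Duality
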