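import Fermat.Agent.Duality.Core.Cochains
import Fermat.Agent.RT.Frobenius
import Fermat.Prelude.Def_GroupCohomology_ContinuousUnramified

/-!
# Level systems on the absolute Galois group of `ℚ` and on its subgroups
-/

set_option autoImplicit false

namespace FermatAgent.Duality

noncomputable section

local notation "Qb" => AlgebraicClosure ℚ
local notation "GQ" => AlgebraicClosure ℚ ≃ₐ[ℚ] AlgebraicClosure ℚ

attribute [local instance] FermatAgent.RT.isGalois_algClosureRat

theorem finiteIndex_fixingSubgroup (F : IntermediateField ℚ Qb) [FiniteDimensional ℚ F] :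
    F.fixingSubgroup.FiniteIndex :=
  (Subgroup.finiteIndex_iff_finite_quotient ..).mpr
    (Subgroup.quotient_finite_of_isOpen _ (IntermediateField.fixingSubgroup_isOpen F))

/-- The open subgroups of `G_ℚ`. -/
def qLevels : LevelSystem GQ where
  lev := {U | ∃ F : IntermediateField ℚ Qb, FiniteDimensional ℚ F ∧ U = F.fixingSubgroup}
  exists_mem := ⟨_, ⊥, inferInstance, rfl⟩
  inf_mem := by
    rintro _ _ ⟨F, hF, rfl⟩ ⟨F', hF', rfl⟩
    exact ⟨_, ⟨F ⊔ F', IntermediateField.finiteDimensional_sup F F', rfl⟩,
      (IntermediateField.fixingSubgroup_sup (K := F) (L := F')).le⟩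
  exists_normal := by
    rintro _ ⟨F, hF, rfl⟩
    let N := IntermediateField.normalClosure ℚ F Qb
    have hfd : FiniteDimensional ℚ N := normalClosure.is_finiteDimensional ℚ F Qb
    have : IsGalois ℚ N := IsGalois.normalClosure ℚ F Qb
    exact ⟨_, ⟨N, hfd, rfl⟩,
      IntermediateField.fixingSubgroup_antitone (IntermediateField.le_normalClosure F),
      (InfiniteGalois.normal_iff_isGalois N).mpr inferInstance⟩
  finiteIndex := by
    rintro _ ⟨F, hF, rfl⟩
    exact finiteIndex_fixingSubgroup F

/-- The levels of a subgroup of `G_ℚ`. -/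
def subLevels (H : Subgroup GQ) : LevelSystem H := qLevels.comap H.subtype

end

end FermatAgent.Duality
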