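import Fermat.Agent.Duality.Core.Maps
import Fermat.Agent.Duality.Core.Galois
import Fermat.Prelude.Def_ExtCitation_KummerBridge

/-!
# Trivial coefficients and decomposition groups over a number field inside `ℚ̄`
-/

set_option autoImplicit false

namespace FermatAgent.Duality

noncomputable section

section Trivial

variable (k : Type*) [CommRing k] (G : Type*) [Group G]

/-- The trivial representation on the coefficient ring. -/
abbrev triv : Representation k G k := Representation.trivial k G k

lemma isPairing_mul : IsPairing (triv k G) (triv k G) (σP := triv k G) (LinearMap.mul k k) :=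
  fun _ _ _ => rfl

variable {G}

/-- The cup product with trivial coefficients. -/
def cupTriv (L : LevelSystem G) :
    H1c L (triv k G) →ₗ[k] H1c L (triv k G) →ₗ[k] H2c L (triv k G) :=
  cup11 (triv k G) L (isPairing_mul k G)

end Trivial

section Sub

variable {k : Type*} [CommRing k] {G : Type*} [Group G] (L : LevelSystem G)
variable {M : Type*} [AddCommGroup M] [Module k M] (ρ : Representation k G M) (H : Subgroup G)

/-- Restriction to a subgroup in degree `1`. -/
def res1 : H1c L ρ →ₗ[k] H1c (L.comap H.subtype) (ρ.comp H.subtype) :=
  map1 ρ (ρ.comp H.subtype) (φ := LinearMap.id) (isLevHom_comap L H.subtype) (fun _ _ => rfl)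

/-- Restriction to a subgroup in degree `2`. -/
def res2 : H2c L ρ →ₗ[k] H2c (L.comap H.subtype) (ρ.comp H.subtype) :=
  map2 ρ (ρ.comp H.subtype) (φ := LinearMap.id) (isLevHom_comap L H.subtype) (fun _ _ => rfl)

end Sub

local notation "Qb" => AlgebraicClosure ℚ
local notation "GQ" => AlgebraicClosure ℚ ≃ₐ[ℚ] AlgebraicClosure ℚ

/-- The field `K` contains the `p`-th roots of unity. -/
def ContainsMuP (p : ℕ) [Fact p.Prime] (K : IntermediateField ℚ Qb) : Prop :=
  ∀ σ ∈ K.fixingSubgroup, ExtCitation.cycloChar p σ = 1

/-- The decomposition group of the place `A` inside `G_K`: the Galois group of the henselian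
field `K^h` attached to `A`. -/
def localGroup (K : IntermediateField ℚ Qb) (A : ValuationSubring Qb) : Subgroup GQ :=
  K.fixingSubgroup ⊓ A.decompositionSubgroup ℚ

/-- The henselian field attached to `K` and `A`. -/
def localField (K : IntermediateField ℚ Qb) (A : ValuationSubring Qb) : IntermediateField ℚ Qb :=
  IntermediateField.fixedField (localGroup K A)

/-- `[K^h : ℚ^h]` if the residue characteristic is `p`, and `0` otherwise. -/
def localDegree (p ℓ : ℕ) (K : IntermediateField ℚ Qb) (A : ValuationSubring Qb) : ℕ :=
  if ℓ = p then (localGroup K A).relIndex (A.decompositionSubgroup ℚ) else 0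

/-- Inertia inside the local group. -/
def localInertia (K : IntermediateField ℚ Qb) (A : ValuationSubring Qb) :
    Subgroup (localGroup K A) :=
  (A.inertiaSubgroupIn ℚ).subgroupOf (localGroup K A)

end

end FermatAgent.Duality
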