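import Fermat.Agent.Duality.Core.Conj
import Fermat.Agent.Duality.Core.Basic

/-!
# `cores ∘ res`, `res ∘ cores`, and independence of the section
-/

set_option autoImplicit false

namespace FermatAgent.Duality

noncomputable section

variable {k G : Type*} [CommRing k] [Group G] (U : Subgroup G) [Fintype (G ⧸ U)]
variable {M : Type*} [AddCommGroup M] [Module k M] (ρ : Representation k G M)
variable (L : LevelSystem G)

omit [Fintype (G ⧸ U)] in
lemma exists_normal_level {X : Type*} {x : U → X} (hU : ∃ V ∈ L.lev, V ≤ U)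
    (hx : IsLev₁ (L.comap U.subtype) x) :
    ∃ V ∈ L.lev, V.Normal ∧ V ≤ U ∧ ∀ a w : U, (w : G) ∈ V → x (a * w) = x a := by
  obtain ⟨_, ⟨W, hW, rfl⟩, h⟩ := hx
  obtain ⟨V₀, hV₀, hV₀U⟩ := hU
  obtain ⟨V₁, hV₁, hle₁⟩ := L.inf_mem hW hV₀
  obtain ⟨V, hV, hle, hn⟩ := L.exists_normal hV₁
  exact ⟨V, hV, hn, fun v hv => hV₀U (hle₁ (hle hv)).2,
    fun a w hw => h a w (hle₁ (hle hw)).1⟩

section CoresRes

variable (hU : ∃ V ∈ L.lev, V ≤ U)

/-- `cores ∘ res` is multiplication by the index, in degree `1`. -/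
theorem cores1_res1 (x : H1c L ρ) :
    cores1 U ρ L hU (res1 L ρ U x) = Fintype.card (G ⧸ U) • x := by
  induction x using Submodule.Quotient.induction_on with
  | _ z =>
    refine (Submodule.Quotient.eq _).mpr ⟨∑ c : G ⧸ U, z.1 (coresSec U c), funext fun g => ?_⟩
    change dd₀ ρ _ g = coresFun₁ U ρ (fun a => z.1 (a : G)) g - (Fintype.card (G ⧸ U) • z.1) g
    have key : ∀ c : G ⧸ U, ρ (coresSec U c) (z.1 (coresU U g c : G)) =
        ρ g (z.1 (coresSec U (g⁻¹ • c))) + z.1 g - z.1 (coresSec U c) := fun c => by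
      rw [eq_sub_iff_add_eq, ← z.2.2, ← z.2.2, coresSec_mul_coresU]
    simp only [coresFun₁_apply, key, dd₀_apply, map_sum, Finset.sum_add_distrib,
      Finset.sum_sub_distrib, Finset.sum_const, Finset.card_univ, Pi.smul_apply]
    rw [sum_smul_reindex U g fun c => ρ g (z.1 (coresSec U c))]
    abel

/-- `cores ∘ res` is multiplication by the index, in degree `2`. -/
theorem cores2_res2 (x : H2c L ρ) :
    cores2 U ρ L hU (res2 L ρ U x) = Fintype.card (G ⧸ U) • x := by
  induction x using Submodule.Quotient.induction_on with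
  | _ z =>
    set f := z.1 with hf
    let y : G → M := fun g => ∑ c : G ⧸ U,
      (f (g, coresSec U (g⁻¹ • c)) - f (coresSec U c, (coresU U g c : G)))
    have hy : IsLev₁ L y := by
      obtain ⟨W, hW, h⟩ := z.2.1
      obtain ⟨V₀, hV₀, hV₀U⟩ := hU
      obtain ⟨V₁, hV₁, hle₁⟩ := L.inf_mem hW hV₀
      obtain ⟨V, hV, hle, hn⟩ := L.exists_normal hV₁
      have hVU : V ≤ U := fun v hv => hV₀U (hle₁ (hle hv)).2
      refine ⟨V, hV, fun g v hv => Finset.sum_congr rfl fun c _ => ?_⟩
      rw [inv_mul_smul_of_mem_normal U hn hVU g hv, coresU_mul, Subgroup.coe_mul]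
      have e1 := h g (coresSec U (g⁻¹ • c)) v (hle₁ (hle hv)).1 1 W.one_mem
      have e2 := h (coresSec U c) (coresU U g c : G) 1 W.one_mem _
        (hle₁ (hle (coe_coresU_mem_normal U hn hVU hv (g⁻¹ • c)))).1
      rw [mul_one] at e1 e2
      rw [← hf] at e1 e2
      rw [e1, e2]
    refine (Submodule.Quotient.eq _).mpr ⟨-y, hy.comp (fun a => -a), funext fun q => ?_⟩
    obtain ⟨g, h⟩ := q
    change dd₁ ρ (-y) (g, h) =
      coresFun₂ U ρ (fun a => f ((a.1 : G), (a.2 : G))) (g, h) -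
        (Fintype.card (G ⧸ U) • f) (g, h)
    have hc := z.2.2
    rw [← hf] at hc
    have key : ∀ c : G ⧸ U,
        ρ (coresSec U c) (f ((coresU U g c : G), (coresU U h (g⁻¹ • c) : G))) =
          f (g, h) - (ρ g (f (h, coresSec U (h⁻¹ • g⁻¹ • c)) -
            f (coresSec U (g⁻¹ • c), (coresU U h (g⁻¹ • c) : G))) -
            (f (g * h, coresSec U ((g * h)⁻¹ • c)) - f (coresSec U c, (coresU U (g * h) c : G))) +
            (f (g, coresSec U (g⁻¹ • c)) - f (coresSec U c, (coresU U g c : G)))) := fun c => by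
      have h1 := hc (coresSec U c) (coresU U g c : G) (coresU U h (g⁻¹ • c) : G)
      have h2 := hc g (coresSec U (g⁻¹ • c)) (coresU U h (g⁻¹ • c) : G)
      have h3 := hc g h (coresSec U (h⁻¹ • g⁻¹ • c))
      rw [coresSec_mul_coresU] at h1
      rw [coresSec_mul_coresU] at h2
      rw [coresU_mul, Subgroup.coe_mul, mul_inv_rev, mul_smul, map_sub]
      linear_combination (norm := abel) -h1 + h2 - h3
    simp only [coresFun₂_apply, key, dd₁_apply, Pi.neg_apply, map_neg, y, map_sum, map_sub,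
      Finset.sum_add_distrib, Finset.sum_sub_distrib, Finset.sum_const, Finset.card_univ,
      Pi.smul_apply]
    rw [sum_smul_reindex U g fun c => ρ g (f (h, coresSec U (h⁻¹ • c))),
      sum_smul_reindex U g fun c => ρ g (f (coresSec U c, (coresU U h c : G)))]
    abel

end CoresRes

section Section

variable (t : G ⧸ U → U)

/-- `u(g, c)` for the section `c ↦ s c * t c`. -/
def coresU' (g : G) (c : G ⧸ U) : U := (t c)⁻¹ * coresU U g c * t (g⁻¹ • c)

omit [Fintype (G ⧸ U)] in
lemma coresSec'_mul_coresU' (g : G) (c : G ⧸ U) :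
    coresSec U c * (t c : G) * (coresU' U t g c : G) =
      g * (coresSec U (g⁻¹ • c) * (t (g⁻¹ • c) : G)) := by
  rw [coresU', Subgroup.coe_mul, Subgroup.coe_mul, Subgroup.coe_inv, ← mul_assoc g,
    ← coresSec_mul_coresU]
  group

/-- Corestriction of `2`-cochains with the section `c ↦ s c * t c`. -/
def coresFun₂' (x : U × U → M) (q : G × G) : M :=
  ∑ c : G ⧸ U, ρ (coresSec U c * (t c : G))
    (x (coresU' U t q.1 c, coresU' U t q.2 (q.1⁻¹ • c)))

/-- Corestriction does not depend on the section, in degree `2`. -/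
theorem coresFun₂'_sub {f : U × U → M} (hU : ∃ V ∈ L.lev, V ≤ U)
    (hf : f ∈ Z2 (L.comap U.subtype) (ρ.comp U.subtype)) :
    ∃ y : G → M, IsLev₁ L y ∧ dd₁ ρ y = coresFun₂' U ρ t f - coresFun₂ U ρ f := by
  let ζ : G → G ⧸ U → M := fun g c =>
    f (coresU U g c, t (g⁻¹ • c)) - f (t c, coresU' U t g c)
  refine ⟨fun g => -∑ c : G ⧸ U, ρ (coresSec U c) (ζ g c), ?_, funext fun q => ?_⟩
  · obtain ⟨_, ⟨W, hW, rfl⟩, h⟩ := hf.1
    obtain ⟨V₀, hV₀, hV₀U⟩ := hU
    obtain ⟨V₁, hV₁, hle₁⟩ := L.inf_mem hW hV₀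
    obtain ⟨V, hV, hle, hn⟩ := L.exists_normal hV₁
    have hVU : V ≤ U := fun v hv => hV₀U (hle₁ (hle hv)).2
    refine ⟨V, hV, fun g v hv => congrArg _ (Finset.sum_congr rfl fun c _ => congrArg _ ?_)⟩
    have hw := coe_coresU_mem_normal U hn hVU hv (g⁻¹ • c)
    have e1 := h (coresU U g c) (t (g⁻¹ • c)) (coresU U v (g⁻¹ • c)) (hle₁ (hle hw)).1 1
      (one_mem _)
    have e2 := h (t c) (coresU' U t g c) 1 (one_mem _)
      ((t (g⁻¹ • c))⁻¹ * coresU U v (g⁻¹ • c) * t (g⁻¹ • c))
      (show _ ∈ W from (hle₁ (hle (by simpa using hn.conj_mem _ hw ((t (g⁻¹ • c) : G))⁻¹))).1)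
    simp only [mul_one] at e1 e2
    have e3 : coresU' U t (g * v) c =
        coresU' U t g c * ((t (g⁻¹ • c))⁻¹ * coresU U v (g⁻¹ • c) * t (g⁻¹ • c)) := by
      simp only [coresU', coresU_mul, inv_mul_smul_of_mem_normal U hn hVU g hv]
      group
    simp only [ζ, inv_mul_smul_of_mem_normal U hn hVU g hv, coresU_mul, e1, e3, e2]
  obtain ⟨g, h⟩ := q
  have hc := hf.2
  simp only [MonoidHom.coe_comp, Subgroup.coe_subtype, Function.comp_apply] at hc
  have key : ∀ c : G ⧸ U, ρ (coresSec U c * (t c : G))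
      (f (coresU' U t g c, coresU' U t h (g⁻¹ • c))) =
      ρ (coresSec U c) (f (coresU U g c, coresU U h (g⁻¹ • c))) -
        (ρ g (ρ (coresSec U (g⁻¹ • c)) (ζ h (g⁻¹ • c))) - ρ (coresSec U c) (ζ (g * h) c) +
          ρ (coresSec U c) (ζ g c)) := by
    intro c
    rw [← rho_coresSec_mul, map_mul, Module.End.mul_apply, ← map_sub, ← map_add, ← map_sub]
    refine congrArg _ ?_
    have h1 := hc (t c) (coresU' U t g c) (coresU' U t h (g⁻¹ • c))
    have h2 := hc (coresU U g c) (t (g⁻¹ • c)) (coresU' U t h (g⁻¹ • c))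
    have h3 := hc (coresU U g c) (coresU U h (g⁻¹ • c)) (t (h⁻¹ • g⁻¹ • c))
    have A : t c * coresU' U t g c = coresU U g c * t (g⁻¹ • c) := by rw [coresU']; group
    have B : t (g⁻¹ • c) * coresU' U t h (g⁻¹ • c) =
        coresU U h (g⁻¹ • c) * t (h⁻¹ • g⁻¹ • c) := by rw [coresU']; group
    have AB : coresU' U t g c * coresU' U t h (g⁻¹ • c) = coresU' U t (g * h) c := by
      simp only [coresU', coresU_mul, mul_inv_rev, mul_smul]; group
    rw [A, AB] at h1
    rw [B] at h2
    simp only [ζ, mul_inv_rev, mul_smul, coresU_mul, map_sub]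
    linear_combination (norm := abel) -h1 + h2 - h3
  simp only [Pi.sub_apply, coresFun₂', coresFun₂_apply, key, dd₁_apply, map_neg, map_sum,
    Finset.sum_add_distrib, Finset.sum_sub_distrib]
  rw [sum_smul_reindex U g fun c => ρ g (ρ (coresSec U c) (ζ h c))]
  abel

end Section

section Normal

variable [U.Normal] (hU : ∃ V ∈ L.lev, V ≤ U)

omit [Fintype (G ⧸ U)] in
lemma coe_coresU_of_normal (n : U) (c : G ⧸ U) :
    coresU U (n : G) c = conjInv U (coresSec U c) n := by
  apply Subtype.ext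
  have h : (n : G)⁻¹ • c = c :=
    smul_eq_of_mem_normal U inferInstance le_rfl (U.inv_mem n.2) c
  simp [coresU, conjInv, h, mul_assoc]

/-- For a normal subgroup `res ∘ cores` is the norm, in degree `1`. -/
theorem res1_cores1 (x : H1c (L.comap U.subtype) (ρ.comp U.subtype)) :
    res1 L ρ U (cores1 U ρ L hU x) = ∑ c : G ⧸ U, conj1 L ρ U (coresSec U c) x := by
  induction x using Submodule.Quotient.induction_on with
  | _ z =>
    change cl1 (L.comap U.subtype) (ρ.comp U.subtype) _ =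
      ∑ c : G ⧸ U, cl1 (L.comap U.subtype) (ρ.comp U.subtype) _
    rw [← map_sum]
    refine congrArg _ (Subtype.ext ?_)
    rw [AddSubmonoidClass.coe_finsetSum]
    ext n
    simp only [Finset.sum_apply]
    exact Finset.sum_congr rfl fun c _ => by
      simp only [mapZ1_apply, Subgroup.coe_subtype, Submodule.subtype_apply, coe_coresU_of_normal]

/-- For a normal subgroup `res ∘ cores` is the norm, in degree `2`. -/
theorem res2_cores2 (x : H2c (L.comap U.subtype) (ρ.comp U.subtype)) :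
    res2 L ρ U (cores2 U ρ L hU x) = ∑ c : G ⧸ U, conj2 L ρ U (coresSec U c) x := by
  induction x using Submodule.Quotient.induction_on with
  | _ z =>
    change cl2 (L.comap U.subtype) (ρ.comp U.subtype) _ =
      ∑ c : G ⧸ U, cl2 (L.comap U.subtype) (ρ.comp U.subtype) _
    rw [← map_sum]
    refine congrArg _ (Subtype.ext ?_)
    rw [AddSubmonoidClass.coe_finsetSum]
    ext ⟨n, m⟩
    simp only [Finset.sum_apply]
    refine Finset.sum_congr rfl fun c _ => ?_
    have h : (n : G)⁻¹ • c = c :=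
      smul_eq_of_mem_normal U inferInstance le_rfl (U.inv_mem n.2) c
    rw [mapZ2_apply]
    simp only [Subgroup.coe_subtype, Submodule.subtype_apply, Prod.map_fst, Prod.map_snd, h,
      coe_coresU_of_normal]

end Normal

end

end FermatAgent.Duality
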