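import Fermat.Agent.Duality.Core.Galois
import Fermat.Agent.LocalP.Places

/-!
# The level system of the Galois group of the maximal extension unramified outside `S`
-/

set_option autoImplicit false

open scoped Pointwise

namespace FermatAgent.Duality

noncomputable section

local notation "Qb" => AlgebraicClosure ℚ
local notation "GQ" => AlgebraicClosure ℚ ≃ₐ[ℚ] AlgebraicClosure ℚ

attribute [local instance] FermatAgent.RT.isGalois_algClosureRat

/-- Inertia groups are permuted by conjugation. -/
theorem conj_mem_inertia {A : ValuationSubring Qb} {σ : GQ} (g : GQ)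
    (hσ : σ ∈ (g • A).inertiaSubgroupIn ℚ) : g⁻¹ * σ * g ∈ A.inertiaSubgroupIn ℚ := by
  rw [FermatAgent.LocalP.mem_inertia_iff_sub_mem] at hσ ⊢
  obtain ⟨hd, h⟩ := hσ
  refine ⟨?_, fun x hx => ?_⟩
  · have : σ • g • A = g • A := hd
    rw [MulAction.mem_stabilizer_iff, mul_smul, mul_smul, this, inv_smul_smul]
  · have hgx : g x ∈ g • A := ValuationSubring.smul_mem_pointwise_smul g x A hx
    have h1 := h _ hgx
    rw [ValuationSubring.mem_nonunits_iff_or] at h1 ⊢
    rcases h1 with h1 | h1
    · left
      rw [AlgEquiv.mul_apply, AlgEquiv.mul_apply]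
      apply g.injective
      rw [map_sub, map_zero]
      simpa using h1
    · right
      intro h2
      apply h1
      have := ValuationSubring.smul_mem_pointwise_smul g _ A h2
      simpa [AlgEquiv.mul_apply] using this

/-- A finite extension unramified outside `S` stays so after taking the normal closure. -/
theorem isUnramifiedOutside_normalClosure {S : Finset Nat.Primes} {F : IntermediateField ℚ Qb}
    (hF : F.IsUnramifiedOutside S) :
    (IntermediateField.normalClosure ℚ F Qb).IsUnramifiedOutside S := by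
  have := hF.1
  refine ⟨normalClosure.is_finiteDimensional ℚ F Qb, fun q hq A hA σ hσ => ?_⟩
  rw [← Subgroup.zpowers_le, ← IntermediateField.le_iff_le, normalClosure_le_iff]
  intro f
  let g : GQ := AlgEquiv.ofBijective (f.liftNormal Qb)
    (Algebra.IsAlgebraic.algHom_bijective _)
  rintro _ ⟨⟨x, hx⟩, rfl⟩ ⟨τ, hτ⟩
  obtain ⟨k, rfl⟩ := Subgroup.mem_zpowers_iff.mp hτ
  have hfg : f ⟨x, hx⟩ = g x := (f.liftNormal_commutes Qb ⟨x, hx⟩).symm
  refine (congrArg (fun y => (σ ^ k) y) hfg).trans (Eq.trans ?_ hfg.symm)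
  refine (MulAction.mem_stabilizer_iff.mp
    ((MulAction.stabilizer GQ (g x)).zpow_mem (show σ ∈ _ from ?_) k) : _)
  have hA' : (g⁻¹ • A).LiesOverPrime (q : ℕ) := by
    show ((q : ℕ) : Qb) ∈ (g⁻¹ • A).nonunits
    have hA0 : ((q : ℕ) : Qb) ∈ A.nonunits := hA
    rw [ValuationSubring.mem_nonunits_iff_or] at hA0 ⊢
    rcases hA0 with h | h
    · exact Or.inl h
    · right
      intro h2
      apply h
      rw [ValuationSubring.mem_pointwise_smul_iff_inv_smul_mem] at h2
      simpa using h2
  have h1 : g⁻¹ * σ * g ∈ (g⁻¹ • A).inertiaSubgroupIn ℚ :=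
    conj_mem_inertia g (by rwa [smul_inv_smul])
  have h2 := (IntermediateField.mem_fixingSubgroup_iff _ _).mp (hF.2 q hq _ hA' h1) x hx
  rw [AlgEquiv.mul_apply, AlgEquiv.mul_apply] at h2
  show σ (g x) = g x
  have := congrArg g h2
  simpa using this

/-- The open subgroups of `G_ℚ` which contain all inertia outside `S`. -/
def sLevels (S : Finset Nat.Primes) : LevelSystem GQ where
  lev := {U | ∃ F : IntermediateField ℚ Qb, F.IsUnramifiedOutside S ∧ U = F.fixingSubgroup}
  exists_mem := ⟨_, ⊥, IntermediateField.isUnramifiedOutside_bot S, rfl⟩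
  inf_mem := by
    rintro _ _ ⟨F, hF, rfl⟩ ⟨F', hF', rfl⟩
    exact ⟨_, ⟨F ⊔ F', hF.sup hF', rfl⟩,
      (IntermediateField.fixingSubgroup_sup (K := F) (L := F')).le⟩
  exists_normal := by
    rintro _ ⟨F, hF, rfl⟩
    have := hF.1
    have : IsGalois ℚ (IntermediateField.normalClosure ℚ F Qb) := IsGalois.normalClosure ℚ F Qb
    exact ⟨_, ⟨_, isUnramifiedOutside_normalClosure hF, rfl⟩,
      IntermediateField.fixingSubgroup_antitone (IntermediateField.le_normalClosure F),
      (InfiniteGalois.normal_iff_isGalois _).mpr inferInstance⟩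
  finiteIndex := by
    rintro _ ⟨F, hF, rfl⟩
    have := hF.1
    exact finiteIndex_fixingSubgroup F

end

end FermatAgent.Duality
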