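import Fermat.Agent.Duality.Core.Cochains
import Mathlib.LinearAlgebra.BilinearMap

/-!
# Functoriality, connecting maps and cup products for level-constant cochains
-/

set_option autoImplicit false

namespace FermatAgent.Duality

variable {k G H : Type*} [CommRing k] [Group G] [Group H]
variable {LG : LevelSystem G} {LH : LevelSystem H}
variable {M N P : Type*} [AddCommGroup M] [Module k M] [AddCommGroup N] [Module k N]
  [AddCommGroup P] [Module k P]

/-- A group homomorphism is compatible with level systems. -/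
def IsLevHom (LH : LevelSystem H) (LG : LevelSystem G) (f : H →* G) : Prop :=
  ∀ U ∈ LG.lev, ∃ V ∈ LH.lev, V ≤ U.comap f

lemma isLevHom_id (L : LevelSystem G) : IsLevHom L L (MonoidHom.id G) :=
  fun U hU => ⟨U, hU, fun _ h => h⟩

lemma isLevHom_comap (L : LevelSystem G) (f : H →* G) : IsLevHom (L.comap f) L f :=
  fun U hU => ⟨U.comap f, ⟨U, hU, rfl⟩, le_rfl⟩

lemma IsLev₁.precomp {f : H →* G} (hf : IsLevHom LH LG f) {X : Type*} {x : G → X}
    (hx : IsLev₁ LG x) : IsLev₁ LH (x ∘ f) := by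
  obtain ⟨U, hU, h⟩ := hx
  obtain ⟨V, hV, hle⟩ := hf U hU
  exact ⟨V, hV, fun g s hs => by simp [h (f g) (f s) (hle hs)]⟩

lemma IsLev₂.precomp {f : H →* G} (hf : IsLevHom LH LG f) {X : Type*} {x : G × G → X}
    (hx : IsLev₂ LG x) : IsLev₂ LH (x ∘ Prod.map f f) := by
  obtain ⟨U, hU, h⟩ := hx
  obtain ⟨V, hV, hle⟩ := hf U hU
  exact ⟨V, hV, fun g g' s hs s' hs' => by
    simp [h (f g) (f g') (f s) (hle hs) (f s') (hle hs')]⟩

/-- A linear map equivariant along a group homomorphism. -/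
def IsEquivariant (ρ : Representation k G M) (σ : Representation k H N) (f : H →* G)
    (φ : M →ₗ[k] N) : Prop :=
  ∀ h m, φ (ρ (f h) m) = σ h (φ m)

variable (ρ : Representation k G M) (σ : Representation k H N)
variable {f : H →* G} (hf : IsLevHom LH LG f) {φ : M →ₗ[k] N} (hφ : IsEquivariant ρ σ f φ)

include hf hφ in
lemma pullPush_mem_Z1 {x : G → M} (hx : x ∈ Z1 LG ρ) : φ ∘ x ∘ f ∈ Z1 LH σ :=
  ⟨(hx.1.precomp hf).comp φ, fun g h => by
    simp only [Function.comp_apply, map_mul, hx.2, map_add, hφ g]⟩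

include hf hφ in
lemma pullPush_mem_Z2 {x : G × G → M} (hx : x ∈ Z2 LG ρ) : φ ∘ x ∘ Prod.map f f ∈ Z2 LH σ :=
  ⟨(hx.1.precomp hf).comp φ, fun g h j => by
    simp only [Function.comp_apply, Prod.map_apply, map_mul, ← map_add, hx.2, ← hφ g]⟩

/-- Pull back cocycles of degree `1` and push them forward. -/
def mapZ1 : Z1 LG ρ →ₗ[k] Z1 LH σ where
  toFun x := ⟨φ ∘ x.1 ∘ f, pullPush_mem_Z1 ρ σ hf hφ x.2⟩
  map_add' x y := by ext h; simp
  map_smul' c x := by ext h; simp

/-- Pull back cocycles of degree `2` and push them forward. -/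
def mapZ2 : Z2 LG ρ →ₗ[k] Z2 LH σ where
  toFun x := ⟨φ ∘ x.1 ∘ Prod.map f f, pullPush_mem_Z2 ρ σ hf hφ x.2⟩
  map_add' x y := by ext h; simp
  map_smul' c x := by ext h; simp

lemma mapZ1_apply (x : Z1 LG ρ) (h : H) : (mapZ1 ρ σ hf hφ x).1 h = φ (x.1 (f h)) := rfl

lemma mapZ2_apply (x : Z2 LG ρ) (h : H × H) :
    (mapZ2 ρ σ hf hφ x).1 h = φ (x.1 (f h.1, f h.2)) := rfl

/-- Functoriality in degree `1`. -/
def map1 : H1c LG ρ →ₗ[k] H1c LH σ :=
  Submodule.mapQ _ _ (mapZ1 ρ σ hf hφ) <| by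
    rintro x ⟨m, hm⟩
    refine ⟨φ m, funext fun h => ?_⟩
    have := congrArg φ (congrFun hm (f h))
    simp only [dd₀_apply, Submodule.subtype_apply, map_sub, hφ h] at this
    simpa [mapZ1] using this

/-- Functoriality in degree `2`. -/
def map2 : H2c LG ρ →ₗ[k] H2c LH σ :=
  Submodule.mapQ _ _ (mapZ2 ρ σ hf hφ) <| by
    rintro x ⟨y, hy, hd⟩
    refine ⟨φ ∘ y ∘ f, (IsLev₁.precomp hf hy).comp φ, funext fun h => ?_⟩
    have := congrArg φ (congrFun hd (f h.1, f h.2))
    simp only [dd₁_apply, Submodule.subtype_apply, map_add, map_sub, hφ h.1, ← map_mul] at this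
    obtain ⟨a, b⟩ := h
    simpa [mapZ2, map_mul] using this

@[simp] lemma map1_cl1 (x : Z1 LG ρ) :
    map1 ρ σ hf hφ (cl1 LG ρ x) = cl1 LH σ (mapZ1 ρ σ hf hφ x) := rfl

@[simp] lemma map2_cl2 (x : Z2 LG ρ) :
    map2 ρ σ hf hφ (cl2 LG ρ x) = cl2 LH σ (mapZ2 ρ σ hf hφ x) := rfl

section Cup

variable {σN : Representation k G N} {σP : Representation k G P}

/-- A bilinear map of representations. -/
def IsPairing (ρ : Representation k G M) (σN : Representation k G N) (σP : Representation k G P)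
    (B : M →ₗ[k] N →ₗ[k] P) : Prop :=
  ∀ g m n, B (ρ g m) (σN g n) = σP g (B m n)

/-- The cup product of two `1`-cochains. -/
def cupFun (σN : Representation k G N) (B : M →ₗ[k] N →ₗ[k] P) (x : G → M) (y : G → N) :
    G × G → P :=
  fun q => B (x q.1) (σN q.1 (y q.2))

variable (L : LevelSystem G) {B : M →ₗ[k] N →ₗ[k] P} (hB : IsPairing ρ σN σP B)

include hB in
lemma cupFun_mem_Z2 {x : G → M} (hx : x ∈ Z1 L ρ) {y : G → N} (hy : y ∈ Z1 L σN) :
    cupFun σN B x y ∈ Z2 L σP := by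
  refine ⟨?_, fun g h j => ?_⟩
  · obtain ⟨U, hU, hxU⟩ := hx.1
    obtain ⟨V, hV, hyV⟩ := hy.1
    obtain ⟨W, hW, hle⟩ := L.inf_mem hU hV
    obtain ⟨W', hW', hle', hn⟩ := L.exists_normal hW
    refine ⟨W', hW', fun g g' s hs s' hs' => ?_⟩
    -- levels act trivially on the values of cocycles
    have h1 : x (g * s) = x g := hxU g s (hle (hle' hs)).1
    have hy1 : ∀ t ∈ W', y t = y 1 := fun t ht => by
      simpa using hyV 1 t (hle (hle' ht)).2
    have hy0 : y 1 = 0 := by simpa using hy.2 1 1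
    have hfix : σN s (y (g' * s')) = y g' := by
      have e : s * (g' * s') = g' * ((g'⁻¹ * s * g') * s') := by group
      have h2 : y (s * (g' * s')) = σN s (y (g' * s')) := by
        rw [hy.2 s (g' * s'), hy1 s hs, hy0, add_zero]
      rw [← h2, e]
      exact hyV g' _ (hle (hle' (W'.mul_mem (by simpa using hn.conj_mem s hs g'⁻¹) hs'))).2
    simp only [cupFun, h1, map_mul, Module.End.mul_apply, hfix]
  · simp only [cupFun, map_mul, Module.End.mul_apply, hx.2, hy.2, map_add, LinearMap.add_apply,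
      hB g]
    abel

/-- The cup product on cocycles. -/
def cupZ : Z1 L ρ →ₗ[k] Z1 L σN →ₗ[k] Z2 L σP :=
  LinearMap.mk₂ k (fun x y => ⟨cupFun σN B x.1 y.1, cupFun_mem_Z2 ρ L hB x.2 y.2⟩)
    (fun a b c => by ext q; simp [cupFun]) (fun r a c => by ext q; simp [cupFun])
    (fun a b c => by ext q; simp [cupFun]) (fun r a c => by ext q; simp [cupFun])

lemma cupZ_apply (x : Z1 L ρ) (y : Z1 L σN) (g h : G) :
    (cupZ ρ L hB x y).1 (g, h) = B (x.1 g) (σN g (y.1 h)) := rfl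

lemma cl2_cupZ_left (x : Z1 L ρ) (y : Z1 L σN) (hx : x ∈ B1 L ρ) :
    cl2 L σP (cupZ ρ L hB x y) = 0 := by
  obtain ⟨m, hm⟩ := hx
  rw [cl2_eq_zero_iff]
  refine ⟨fun h => B m (y.1 h), y.2.1.comp (B m), funext fun q => ?_⟩
  obtain ⟨g, h⟩ := q
  rw [cupZ_apply, show x.1 g = dd₀ ρ m g from (congrFun hm g).symm]
  simp only [dd₁_apply, dd₀_apply, map_sub, LinearMap.sub_apply, ← hB g, y.2.2 g h, map_add]
  abel

lemma cl2_cupZ_right (x : Z1 L ρ) (y : Z1 L σN) (hy : y ∈ B1 L σN) :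
    cl2 L σP (cupZ ρ L hB x y) = 0 := by
  obtain ⟨n, hn⟩ := hy
  rw [cl2_eq_zero_iff]
  refine ⟨fun g => -B (x.1 g) (σN g n), ?_, funext fun q => ?_⟩
  · obtain ⟨U, hU, hU'⟩ := x.2.1
    obtain ⟨V, hV, hV'⟩ := y.2.1
    obtain ⟨W, hW, hle⟩ := L.inf_mem hU hV
    refine ⟨W, hW, fun g s hs => ?_⟩
    have h0 : y.1 1 = 0 := by simpa using y.2.2 1 1
    have : σN s n = n := by
      have e := congrFun hn s
      rw [Submodule.subtype_apply, ← one_mul s, hV' 1 s (hle hs).2, one_mul, h0, dd₀_apply,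
        sub_eq_zero] at e
      exact e
    simp [hU' g s (hle hs).1, map_mul, this]
  obtain ⟨g, h⟩ := q
  rw [cupZ_apply, show y.1 h = dd₀ σN n h from (congrFun hn h).symm]
  simp only [dd₁_apply, dd₀_apply, map_sub, x.2.2 g h, map_add, LinearMap.add_apply, map_neg,
    map_mul, Module.End.mul_apply, hB g]
  abel

/-- The cup product `H¹ × H¹ → H²`. -/
noncomputable def cup11 : H1c L ρ →ₗ[k] H1c L σN →ₗ[k] H2c L σP :=
  (B1 L ρ).liftQ
    (LinearMap.mk₂ k
      (fun (x : Z1 L ρ) (y : H1c L σN) => ((B1 L σN).liftQ ((cl2 L σP) ∘ₗ cupZ ρ L hB x)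
        fun z hz => LinearMap.mem_ker.mpr (cl2_cupZ_right ρ L hB x z hz)) y)
      (fun a b c => by induction c using Submodule.Quotient.induction_on; simp)
      (fun r a c => by induction c using Submodule.Quotient.induction_on; simp)
      (fun a b c => by simp) (fun r a c => by simp))
    fun x hx => by
      refine LinearMap.mem_ker.mpr (LinearMap.ext fun y => ?_)
      induction y using Submodule.Quotient.induction_on with
      | _ z => exact cl2_cupZ_left ρ L hB x z hx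

@[simp] lemma cup11_cl1 (x : Z1 L ρ) (y : Z1 L σN) :
    cup11 ρ L hB (cl1 L ρ x) (cl1 L σN y) = cl2 L σP (cupZ ρ L hB x y) := rfl

end Cup

end FermatAgent.Duality
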