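import Mathlib.RepresentationTheory.Homological.GroupCohomology.LowDegree
import Mathlib.GroupTheory.Index
import Mathlib.LinearAlgebra.Quotient.Basic

/-!
# Level-constant cochains of degree at most two

A `LevelSystem` is a family of finite index subgroups playing the role of the open subgroups of a
profinite group. Cochains are required to be constant on the cosets of one of them. This gives a
small unbundled theory of continuous cohomology in degrees `≤ 2`, uniform for `G_{F,S}`, `G_F` and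
decomposition groups.
-/

set_option autoImplicit false

namespace FermatAgent.Duality

/-- A family of finite index subgroups, closed under intersection, every member of which contains a
normal member. -/
structure LevelSystem (G : Type*) [Group G] where
  lev : Set (Subgroup G)
  exists_mem : ∃ U, U ∈ lev
  inf_mem : ∀ ⦃U V⦄, U ∈ lev → V ∈ lev → ∃ W ∈ lev, W ≤ U ⊓ V
  exists_normal : ∀ ⦃U⦄, U ∈ lev → ∃ V ∈ lev, V ≤ U ∧ V.Normal
  finiteIndex : ∀ ⦃U⦄, U ∈ lev → U.FiniteIndex

namespace LevelSystem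

variable {G H : Type*} [Group G] [Group H]

/-- Pulling back along a group homomorphism. -/
def comap (L : LevelSystem G) (f : H →* G) : LevelSystem H where
  lev := {V | ∃ U ∈ L.lev, V = U.comap f}
  exists_mem := ⟨_, L.exists_mem.choose, L.exists_mem.choose_spec, rfl⟩
  inf_mem := by
    rintro _ _ ⟨U, hU, rfl⟩ ⟨V, hV, rfl⟩
    obtain ⟨W, hW, h⟩ := L.inf_mem hU hV
    exact ⟨_, ⟨W, hW, rfl⟩, fun x hx => ⟨(h hx).1, (h hx).2⟩⟩
  exists_normal := by
    rintro _ ⟨U, hU, rfl⟩
    obtain ⟨V, hV, hle, hn⟩ := L.exists_normal hU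
    exact ⟨_, ⟨V, hV, rfl⟩, Subgroup.comap_mono hle, hn.comap f⟩
  finiteIndex := by
    rintro _ ⟨U, hU, rfl⟩
    have := L.finiteIndex hU
    refine ⟨?_⟩
    rw [Subgroup.index_comap]
    have := Subgroup.isFiniteRelIndex_of_finiteIndex (H := U) (K := f.range)
    exact Subgroup.relIndex_ne_zero

end LevelSystem

section Cochains

open groupCohomology

variable {k G : Type*} [CommRing k] [Group G] (L : LevelSystem G)

/-- A function of one variable is constant on the cosets of some level. -/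
def IsLev₁ {X : Type*} (f : G → X) : Prop :=
  ∃ U ∈ L.lev, ∀ g, ∀ s ∈ U, f (g * s) = f g

/-- A function of two variables is constant on the cosets of some level. -/
def IsLev₂ {X : Type*} (f : G × G → X) : Prop :=
  ∃ U ∈ L.lev, ∀ g g', ∀ s ∈ U, ∀ s' ∈ U, f (g * s, g' * s') = f (g, g')

variable {L}

lemma IsLev₁.comp {X Y : Type*} {f : G → X} (hf : IsLev₁ L f) (φ : X → Y) :
    IsLev₁ L (φ ∘ f) := by
  obtain ⟨U, hU, h⟩ := hf
  exact ⟨U, hU, fun g s hs => congrArg φ (h g s hs)⟩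

lemma IsLev₂.comp {X Y : Type*} {f : G × G → X} (hf : IsLev₂ L f) (φ : X → Y) :
    IsLev₂ L (φ ∘ f) := by
  obtain ⟨U, hU, h⟩ := hf
  exact ⟨U, hU, fun g g' s hs s' hs' => congrArg φ (h g g' s hs s' hs')⟩

lemma IsLev₁.add {X : Type*} [Add X] {f f' : G → X} (hf : IsLev₁ L f) (hf' : IsLev₁ L f') :
    IsLev₁ L (f + f') := by
  obtain ⟨U, hU, h⟩ := hf
  obtain ⟨U', hU', h'⟩ := hf'
  obtain ⟨W, hW, hle⟩ := L.inf_mem hU hU'
  exact ⟨W, hW, fun g s hs => by simp [h g s (hle hs).1, h' g s (hle hs).2]⟩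

lemma IsLev₂.add {X : Type*} [Add X] {f f' : G × G → X} (hf : IsLev₂ L f) (hf' : IsLev₂ L f') :
    IsLev₂ L (f + f') := by
  obtain ⟨U, hU, h⟩ := hf
  obtain ⟨U', hU', h'⟩ := hf'
  obtain ⟨W, hW, hle⟩ := L.inf_mem hU hU'
  exact ⟨W, hW, fun g g' s hs s' hs' => by
    simp [h g g' s (hle hs).1 s' (hle hs').1, h' g g' s (hle hs).2 s' (hle hs').2]⟩

variable (L)

lemma isLev₁_const {X : Type*} (x : X) : IsLev₁ L (fun _ : G => x) :=
  let ⟨U, hU⟩ := L.exists_mem
  ⟨U, hU, fun _ _ _ => rfl⟩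

lemma isLev₂_const {X : Type*} (x : X) : IsLev₂ L (fun _ : G × G => x) :=
  let ⟨U, hU⟩ := L.exists_mem
  ⟨U, hU, fun _ _ _ _ _ _ => rfl⟩

variable {M : Type*} [AddCommGroup M] [Module k M]

/-- Every vector is fixed by some level. -/
def IsSmooth (ρ : Representation k G M) : Prop :=
  ∀ m : M, ∃ U ∈ L.lev, ∀ s ∈ U, ρ s m = m

variable (ρ : Representation k G M)

/-- The differential in degree `0`. -/
def dd₀ : M →ₗ[k] (G → M) where
  toFun m g := ρ g m - m
  map_add' a b := by ext g; simp only [map_add, Pi.add_apply]; abel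
  map_smul' c a := by ext g; simp [smul_sub]

/-- The differential in degree `1`. -/
def dd₁ : (G → M) →ₗ[k] (G × G → M) where
  toFun x p := ρ p.1 (x p.2) - x (p.1 * p.2) + x p.1
  map_add' a b := by ext g; simp only [map_add, Pi.add_apply]; abel
  map_smul' c a := by ext g; simp [smul_sub, smul_add]

@[simp] lemma dd₀_apply (m : M) (g : G) : dd₀ ρ m g = ρ g m - m := rfl

@[simp] lemma dd₁_apply (x : G → M) (g h : G) :
    dd₁ ρ x (g, h) = ρ g (x h) - x (g * h) + x g := rfl

/-- Level-constant `1`-cochains. -/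
def lev₁ : Submodule k (G → M) where
  carrier := {f | IsLev₁ L f}
  add_mem' hf hf' := hf.add hf'
  zero_mem' := isLev₁_const L (0 : M)
  smul_mem' c _ hf := hf.comp (c • ·)

/-- Level-constant `1`-cocycles. -/
def Z1 : Submodule k (G → M) where
  carrier := {f | IsLev₁ L f ∧ ∀ g h, f (g * h) = ρ g (f h) + f g}
  add_mem' hf hf' := ⟨hf.1.add hf'.1, fun g h => by
    simp only [Pi.add_apply, hf.2 g h, hf'.2 g h, map_add]; abel⟩
  zero_mem' := ⟨isLev₁_const L (0 : M), fun g h => by simp⟩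
  smul_mem' c f hf := ⟨hf.1.comp (c • ·), fun g h => by simp [hf.2 g h, smul_add]⟩

/-- Level-constant `2`-cocycles. -/
def Z2 : Submodule k (G × G → M) where
  carrier := {f | IsLev₂ L f ∧
    ∀ g h j, f (g * h, j) + f (g, h) = ρ g (f (h, j)) + f (g, h * j)}
  add_mem' hf hf' := ⟨hf.1.add hf'.1, fun g h j => by
    simp only [Pi.add_apply, map_add]
    linear_combination (norm := abel) hf.2 g h j + hf'.2 g h j⟩
  zero_mem' := ⟨isLev₂_const L (0 : M), fun g h j => by simp⟩
  smul_mem' c f hf := ⟨hf.1.comp (c • ·), fun g h j => by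
    simp only [Pi.smul_apply, map_smul, ← smul_add, hf.2 g h j]⟩

lemma mem_Z1 {f : G → M} :
    f ∈ Z1 L ρ ↔ IsLev₁ L f ∧ ∀ g h, f (g * h) = ρ g (f h) + f g := Iff.rfl

lemma mem_Z2 {f : G × G → M} : f ∈ Z2 L ρ ↔ IsLev₂ L f ∧
    ∀ g h j, f (g * h, j) + f (g, h) = ρ g (f (h, j)) + f (g, h * j) := Iff.rfl

/-- Coboundaries in degree `1`, among level-constant cocycles. -/
def B1 : Submodule k (Z1 L ρ) := (LinearMap.range (dd₀ ρ)).comap (Z1 L ρ).subtype

/-- Coboundaries of level-constant cochains, among level-constant `2`-cocycles. -/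
def B2 : Submodule k (Z2 L ρ) := ((lev₁ L).map (dd₁ ρ)).comap (Z2 L ρ).subtype

/-- Continuous cohomology in degree `1`. -/
abbrev H1c : Type _ := (Z1 L ρ) ⧸ B1 L ρ

/-- Continuous cohomology in degree `2`. -/
abbrev H2c : Type _ := (Z2 L ρ) ⧸ B2 L ρ

/-- The class of a cocycle of degree `1`. -/
abbrev cl1 : Z1 L ρ →ₗ[k] H1c L ρ := Submodule.mkQ _

/-- The class of a cocycle of degree `2`. -/
abbrev cl2 : Z2 L ρ →ₗ[k] H2c L ρ := Submodule.mkQ _

lemma cl1_eq_zero_iff (f : Z1 L ρ) : cl1 L ρ f = 0 ↔ ∃ m, dd₀ ρ m = f.1 := by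
  exact (Submodule.Quotient.mk_eq_zero _).trans LinearMap.mem_range

lemma cl2_eq_zero_iff (f : Z2 L ρ) :
    cl2 L ρ f = 0 ↔ ∃ x, IsLev₁ L x ∧ dd₁ ρ x = f.1 := by
  exact (Submodule.Quotient.mk_eq_zero _).trans Submodule.mem_map

end Cochains

end FermatAgent.Duality
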