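import Fermat.Agent.Duality.Core.Conj

/-!
# Composition and linearity of the maps induced on cohomology
-/

set_option autoImplicit false

namespace FermatAgent.Duality

noncomputable section

variable {k G H K : Type*} [CommRing k] [Group G] [Group H] [Group K]
variable {LG : LevelSystem G} {LH : LevelSystem H} {LK : LevelSystem K}
variable {M N P : Type*} [AddCommGroup M] [Module k M] [AddCommGroup N] [Module k N]
  [AddCommGroup P] [Module k P]
variable {ρ : Representation k G M} {σ : Representation k H N} {τ : Representation k K P}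
variable {f : H →* G} {g : K →* H} (hf : IsLevHom LH LG f) (hg : IsLevHom LK LH g)
variable {φ : M →ₗ[k] N} {ψ : N →ₗ[k] P}
variable (hφ : IsEquivariant ρ σ f φ) (hψ : IsEquivariant σ τ g ψ)

include hf hg in
lemma IsLevHom.trans : IsLevHom LK LG (f.comp g) := fun U hU =>
  let ⟨_, hV, hle⟩ := hf U hU
  let ⟨W, hW, hle'⟩ := hg _ hV
  ⟨W, hW, fun _ h => hle (hle' h)⟩

include hφ hψ in
lemma IsEquivariant.trans : IsEquivariant ρ τ (f.comp g) (ψ ∘ₗ φ) := fun h m => by
  show ψ (φ (ρ (f (g h)) m)) = _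
  rw [hφ, hψ]
  rfl

theorem map1_map1 (x : H1c LG ρ) :
    map1 σ τ hg hψ (map1 ρ σ hf hφ x) = map1 ρ τ (hf.trans hg) (hφ.trans hψ) x := by
  induction x using Submodule.Quotient.induction_on with | _ z => rfl

theorem map2_map2 (x : H2c LG ρ) :
    map2 σ τ hg hψ (map2 ρ σ hf hφ x) = map2 ρ τ (hf.trans hg) (hφ.trans hψ) x := by
  induction x using Submodule.Quotient.induction_on with | _ z => rfl

variable {f' : H →* G} {hf' : IsLevHom LH LG f'} {φ' : M →ₗ[k] N} {hφ' : IsEquivariant ρ σ f' φ'}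

theorem map1_congr (h : ∀ a, f a = f' a) (h' : ∀ m, φ m = φ' m) (x : H1c LG ρ) :
    map1 ρ σ hf hφ x = map1 ρ σ hf' hφ' x := by
  obtain rfl : f = f' := MonoidHom.ext h
  obtain rfl : φ = φ' := LinearMap.ext h'
  rfl

theorem map2_congr (h : ∀ a, f a = f' a) (h' : ∀ m, φ m = φ' m) (x : H2c LG ρ) :
    map2 ρ σ hf hφ x = map2 ρ σ hf' hφ' x := by
  obtain rfl : f = f' := MonoidHom.ext h
  obtain rfl : φ = φ' := LinearMap.ext h'
  rfl

variable {L : LevelSystem G} {hL : IsLevHom L L (MonoidHom.id G)}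

theorem map1_id_apply {h : IsEquivariant ρ ρ (MonoidHom.id G) LinearMap.id} (x : H1c L ρ) :
    map1 ρ ρ hL h x = x := by
  induction x using Submodule.Quotient.induction_on with | _ z => rfl

theorem map2_id_apply {h : IsEquivariant ρ ρ (MonoidHom.id G) LinearMap.id} (x : H2c L ρ) :
    map2 ρ ρ hL h x = x := by
  induction x using Submodule.Quotient.induction_on with | _ z => rfl

theorem map1_eq_sum {ι : Type*} {s : Finset ι} {φs : ι → M →ₗ[k] N}
    (hs : ∀ i, IsEquivariant ρ σ f (φs i)) (h : φ = ∑ i ∈ s, φs i) (x : H1c LG ρ) :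
    map1 ρ σ hf hφ x = ∑ i ∈ s, map1 ρ σ hf (hs i) x := by
  induction x using Submodule.Quotient.induction_on with
  | _ z =>
    change cl1 LH σ _ = ∑ i ∈ s, cl1 LH σ _
    rw [← map_sum]
    refine congrArg _ (Subtype.ext (funext fun a => ?_))
    simp [mapZ1_apply, h, LinearMap.sum_apply]

theorem map2_eq_sum {ι : Type*} {s : Finset ι} {φs : ι → M →ₗ[k] N}
    (hs : ∀ i, IsEquivariant ρ σ f (φs i)) (h : φ = ∑ i ∈ s, φs i) (x : H2c LG ρ) :
    map2 ρ σ hf hφ x = ∑ i ∈ s, map2 ρ σ hf (hs i) x := by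
  induction x using Submodule.Quotient.induction_on with
  | _ z =>
    change cl2 LH σ _ = ∑ i ∈ s, cl2 LH σ _
    rw [← map_sum]
    refine congrArg _ (Subtype.ext (funext fun a => ?_))
    simp [mapZ2_apply, h, LinearMap.sum_apply]

end

end FermatAgent.Duality
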