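import Fermat.Agent.Duality.Core.Mackey

/-!
# Naturality of corestriction and the projection formula
-/

set_option autoImplicit false

namespace FermatAgent.Duality

noncomputable section

variable {k G : Type*} [CommRing k] [Group G] (U : Subgroup G) [Fintype (G ⧸ U)]
variable {M N P : Type*} [AddCommGroup M] [Module k M] [AddCommGroup N] [Module k N]
  [AddCommGroup P] [Module k P]
variable (L : LevelSystem G) (hU : ∃ V ∈ L.lev, V ≤ U)

section Naturality

variable {ρ : Representation k G M} {σ : Representation k G N} {φ : M →ₗ[k] N}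
  (hφ : IsEquivariant ρ σ (MonoidHom.id G) φ)

omit [Fintype (G ⧸ U)] in
include hφ in
lemma isEquivariant_sub : IsEquivariant (ρ.comp U.subtype) (σ.comp U.subtype) (MonoidHom.id U) φ :=
  fun u m => hφ (u : G) m

/-- Corestriction commutes with maps of coefficients, in degree `1`. -/
theorem cores1_map1 (x : H1c (L.comap U.subtype) (ρ.comp U.subtype)) :
    cores1 U σ L hU (map1 (ρ.comp U.subtype) (σ.comp U.subtype) (isLevHom_id _)
        (isEquivariant_sub U hφ) x) =
      map1 ρ σ (isLevHom_id L) hφ (cores1 U ρ L hU x) := by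
  induction x using Submodule.Quotient.induction_on with
  | _ z =>
    refine congrArg (cl1 L σ) (Subtype.ext (funext fun g => ?_))
    show coresFun₁ U σ (fun a => φ (z.1 a)) g = φ (coresFun₁ U ρ z.1 g)
    simp only [coresFun₁_apply, map_sum]
    exact Finset.sum_congr rfl fun c _ => (hφ _ _).symm

/-- Corestriction commutes with maps of coefficients, in degree `2`. -/
theorem cores2_map2 (x : H2c (L.comap U.subtype) (ρ.comp U.subtype)) :
    cores2 U σ L hU (map2 (ρ.comp U.subtype) (σ.comp U.subtype) (isLevHom_id _)
        (isEquivariant_sub U hφ) x) =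
      map2 ρ σ (isLevHom_id L) hφ (cores2 U ρ L hU x) := by
  induction x using Submodule.Quotient.induction_on with
  | _ z =>
    refine congrArg (cl2 L σ) (Subtype.ext (funext fun q => ?_))
    show coresFun₂ U σ (fun a => φ (z.1 (a.1, a.2))) q = φ (coresFun₂ U ρ z.1 q)
    obtain ⟨g, h⟩ := q
    simp only [coresFun₂_apply, map_sum]
    exact Finset.sum_congr rfl fun c _ => (hφ _ _).symm

end Naturality

section Projection

variable {ρ : Representation k G M} {σN : Representation k G N} {σP : Representation k G P}
variable {B : M →ₗ[k] N →ₗ[k] P} (hB : IsPairing ρ σN σP B)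

omit [Fintype (G ⧸ U)] in
include hB in
lemma isPairing_sub :
    IsPairing (ρ.comp U.subtype) (σN.comp U.subtype) (σP := σP.comp U.subtype) B :=
  fun u m n => hB (u : G) m n

/-- The projection formula `cores (res x ∪ y) = x ∪ cores y`. -/
theorem cores2_cup11_res1 (x : H1c L ρ) (y : H1c (L.comap U.subtype) (σN.comp U.subtype)) :
    cores2 U σP L hU
        (cup11 (ρ.comp U.subtype) (L.comap U.subtype) (isPairing_sub U hB) (res1 L ρ U x) y) =
      cup11 ρ L hB x (cores1 U σN L hU y) := by
  induction x using Submodule.Quotient.induction_on with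
  | _ a =>
  induction y using Submodule.Quotient.induction_on with
  | _ b =>
    let z : G → P := fun g => ∑ c : G ⧸ U,
      B (a.1 (coresSec U c)) (σN (coresSec U c) (b.1 (coresU U g c)))
    have hz : IsLev₁ L z := by
      obtain ⟨V, hV, hn, hVU, h⟩ := exists_normal_level U L hU b.2.1
      refine ⟨V, hV, fun g v hv => Finset.sum_congr rfl fun c _ => ?_⟩
      rw [coresU_mul, h _ _ (coe_coresU_mem_normal U hn hVU hv _)]
    refine (Submodule.Quotient.eq _).mpr ⟨z, hz, funext fun q => ?_⟩
    obtain ⟨g, h⟩ := q
    change dd₁ σP z (g, h) = coresFun₂ U σP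
        (fun r : U × U => B (a.1 (r.1 : G)) (σN (r.1 : G) (b.1 r.2))) (g, h) -
      B (a.1 g) (σN g (coresFun₁ U σN b.1 h))
    have hb := b.2.2
    simp only [MonoidHom.coe_comp, Subgroup.coe_subtype, Function.comp_apply] at hb
    have key : ∀ c : G ⧸ U, σP (coresSec U c)
        (B (a.1 (coresU U g c : G)) (σN (coresU U g c : G) (b.1 (coresU U h (g⁻¹ • c))))) =
        B (a.1 g) (σN g (σN (coresSec U (g⁻¹ • c)) (b.1 (coresU U h (g⁻¹ • c))))) +
          (σP g (B (a.1 (coresSec U (g⁻¹ • c)))
              (σN (coresSec U (g⁻¹ • c)) (b.1 (coresU U h (g⁻¹ • c))))) -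
            B (a.1 (coresSec U c)) (σN (coresSec U c) (b.1 (coresU U (g * h) c))) +
            B (a.1 (coresSec U c)) (σN (coresSec U c) (b.1 (coresU U g c)))) := by
      intro c
      have e1 : ρ (coresSec U c) (a.1 (coresU U g c : G)) =
          ρ g (a.1 (coresSec U (g⁻¹ • c))) + a.1 g - a.1 (coresSec U c) := by
        rw [eq_sub_iff_add_eq, ← a.2.2, ← a.2.2, coresSec_mul_coresU]
      rw [← hB, e1, coresU_mul, hb, ← hB g, ← rho_coresSec_mul U σN g c]
      simp only [map_add, map_sub, LinearMap.add_apply, LinearMap.sub_apply]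
      abel
    simp only [coresFun₂_apply, coresFun₁_apply, key, dd₁_apply, z, map_sum,
      Finset.sum_add_distrib, Finset.sum_sub_distrib]
    rw [sum_smul_reindex U g fun c =>
        B (a.1 g) (σN g (σN (coresSec U c) (b.1 (coresU U h c)))),
      sum_smul_reindex U g fun c =>
        σP g (B (a.1 (coresSec U c)) (σN (coresSec U c) (b.1 (coresU U h c))))]
    abel

end Projection

end

end FermatAgent.Duality
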