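import Fermat.Agent.Duality.Core.Les
import Fermat.Agent.Duality.Core.Projection
import Fermat.Agent.Duality.Core.Basic
import Mathlib.GroupTheory.PGroup

/-!
# Modules over a `p`-group and right exactness of `H²`

If a normal subgroup `N` of `p`-power index acts trivially and `H²` lifts along surjections onto
lines with trivial action (`LineLift`), then `H²` is right exact on such modules.
-/

set_option autoImplicit false

namespace FermatAgent.Duality

noncomputable section

variable {p : ℕ} [Fact p.Prime] {G : Type} [Group G]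

/-- A normal subgroup acts trivially. -/
def TrivialOn {M : Type} [AddCommGroup M] [Module (ZMod p) M] (N : Subgroup G)
    (ρ : Representation (ZMod p) G M) : Prop :=
  ∀ g ∈ N, ∀ m, ρ g m = m

variable (N : Subgroup G) [N.Normal] (hN : IsPGroup p (G ⧸ N))

include hN in
/-- A nonzero finite module on which `N` acts trivially has a nonzero fixed vector. -/
theorem exists_fixed_vector {M : Type} [AddCommGroup M] [Module (ZMod p) M] [Finite M]
    [Nontrivial M] (ρ : Representation (ZMod p) G M) (hρ : TrivialOn N ρ) :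
    ∃ m : M, m ≠ 0 ∧ ∀ g, ρ g m = m := by
  let act : G ⧸ N →* Module.End (ZMod p) M := QuotientGroup.lift N ρ fun g hg =>
    MonoidHom.mem_ker.mpr (LinearMap.ext fun m => hρ g hg m)
  let : MulAction (G ⧸ N) M :=
    { smul := fun q m => act q m
      one_smul := fun m => by show act 1 m = m; simp
      mul_smul := fun a b m => by show act (a * b) m = act a (act b m); simp }
  have hdvd : p ∣ Nat.card M := by
    have h := Module.natCard_eq_pow_finrank (K := ZMod p) (V := M)
    rw [Nat.card_zmod] at h
    rw [h]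
    exact dvd_pow_self p (Module.finrank_pos (R := ZMod p) (M := M)).ne'
  obtain ⟨b, hb, hb0⟩ := hN.exists_fixed_point_of_prime_dvd_card_of_fixed_point M hdvd (a := 0)
    fun q => map_zero (act q)
  exact ⟨b, fun e => hb0 e.symm, fun g => hb (QuotientGroup.mk g)⟩

omit [N.Normal] in
lemma TrivialOn.isSmooth {M : Type} [AddCommGroup M] [Module (ZMod p) M]
    {ρ : Representation (ZMod p) G M} {L : LevelSystem G} (hU : ∃ V ∈ L.lev, V ≤ N)
    (hρ : TrivialOn N ρ) : IsSmooth L ρ :=
  fun m => let ⟨V, hV, hle⟩ := hU; ⟨V, hV, fun s hs => hρ s (hle hs) m⟩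

variable [Fintype (G ⧸ N)] (L : LevelSystem G) (hU : ∃ V ∈ L.lev, V ≤ N)

/-- Corestriction from `N` is surjective on `H²(·, 𝔽_p)`. -/
def CoresSurjective : Prop :=
  Function.Surjective (cores2 N (triv (ZMod p) G) L hU)

variable {A B C : Type} [AddCommGroup A] [Module (ZMod p) A] [AddCommGroup B] [Module (ZMod p) B]
  [AddCommGroup C] [Module (ZMod p) C]
  {ρA : Representation (ZMod p) G A} {ρB : Representation (ZMod p) G B}
  {ρC : Representation (ZMod p) G C}

omit [Fintype (G ⧸ N)] in
variable (p) in
/-- `H²` lifts along surjections onto lines with trivial action. -/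
def LineLift : Prop :=
  ∀ ⦃B C : Type⦄ [AddCommGroup B] [Module (ZMod p) B] [AddCommGroup C] [Module (ZMod p) C]
    [Finite B] (ρB : Representation (ZMod p) G B) (ρC : Representation (ZMod p) G C)
    (π : B →ₗ[ZMod p] C) (hπ : IsEquivariant ρB ρC (MonoidHom.id G) π),
    Function.Surjective π → TrivialOn N ρB → ∀ c : C, c ≠ 0 → (∀ g, ρC g c = c) →
      (∀ x : C, ∃ r : ZMod p, x = r • c) → Function.Surjective (map2 ρB ρC (isLevHom_id L) hπ)

omit [Fintype (G ⧸ N)] in
include hN hU in
/-- `H²` is right exact on modules on which `N` acts trivially. -/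
theorem p2_surjective [Finite B] (hline : LineLift p N L)
    {π : B →ₗ[ZMod p] C} (hπ : IsEquivariant ρB ρC (MonoidHom.id G) π)
    (hsurj : Function.Surjective π) (hB : TrivialOn N ρB) :
    Function.Surjective (map2 ρB ρC (isLevHom_id L) hπ) := by
  induction h : Nat.card C using Nat.strong_induction_on generalizing B C with
  | _ n ih =>
  have : Finite C := Finite.of_surjective π hsurj
  have hC : TrivialOn N ρC := fun g hg x => by
    obtain ⟨b, rfl⟩ := hsurj x
    have := hπ g b
    simp only [MonoidHom.id_apply] at this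
    rw [← this, hB g hg]
  cases subsingleton_or_nontrivial C with
  | inl hs =>
    intro y
    refine ⟨0, ?_⟩
    induction y using Submodule.Quotient.induction_on with
    | _ w =>
      rw [show w = 0 from Subtype.ext (funext fun q => Subsingleton.elim _ _)]
      simp
  | inr hn =>
  obtain ⟨c, hc0, hc⟩ := exists_fixed_vector N hN ρC hC
  -- the line through `c` and the quotient by it
  let C₁ : Submodule (ZMod p) C := Submodule.span (ZMod p) {c}
  have hC₁ : ∀ g, C₁ ≤ C₁.comap (ρC g) := fun g x hx => by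
    obtain ⟨r, rfl⟩ := Submodule.mem_span_singleton.mp hx
    show ρC g (r • c) ∈ C₁
    rw [map_smul, hc]
    exact hx
  let ρ₁ := ρC.subrepresentation C₁ hC₁
  let ρq := ρC.quotient C₁ hC₁
  let B₁ : Submodule (ZMod p) B := C₁.comap π
  have hB₁ : ∀ g, B₁ ≤ B₁.comap (ρB g) := fun g b hb => by
    show π (ρB g b) ∈ C₁
    rw [show π (ρB g b) = ρC g (π b) from hπ g b]
    exact hC₁ g hb
  let σ := ρB.subrepresentation B₁ hB₁
  let S : SES ρ₁ ρC ρq :=
    { incl := C₁.subtype
      proj := C₁.mkQ
      incl_equiv := fun g a => rfl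
      proj_equiv := fun g b => rfl
      injective := C₁.subtype_injective
      surjective := C₁.mkQ_surjective
      exact := LinearMap.exact_subtype_mkQ C₁ }
  have hcard : Nat.card (C ⧸ C₁) < n := by
    have : Finite (C ⧸ C₁) := Finite.of_surjective _ C₁.mkQ_surjective
    rw [← h, Submodule.card_eq_card_quotient_mul_card C₁]
    refine lt_mul_of_one_lt_left Nat.card_pos ?_
    have : Nontrivial C₁ :=
      ⟨⟨c, Submodule.mem_span_singleton_self c⟩, 0, fun e => hc0 (congrArg Subtype.val e)⟩
    exact Finite.one_lt_card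
  have hπq : IsEquivariant ρB ρq (MonoidHom.id G) (C₁.mkQ ∘ₗ π) := fun g b => by
    show C₁.mkQ (π (ρB g b)) = _
    rw [show π (ρB g b) = ρC g (π b) from hπ g b]
    rfl
  intro y
  obtain ⟨x, hx⟩ := ih _ hcard hπq (C₁.mkQ_surjective.comp hsurj) hB rfl (S.p2 L y)
  have hker : y - map2 ρB ρC (isLevHom_id L) hπ x ∈ LinearMap.ker (S.p2 L) := by
    rw [LinearMap.mem_ker, map_sub, ← hx, sub_eq_zero]
    induction x using Submodule.Quotient.induction_on with
    | _ w => rfl
  rw [← S.range_i2 L (hC.isSmooth N hU)] at hker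
  obtain ⟨y₁, hy₁⟩ := hker
  let π₁ : B₁ →ₗ[ZMod p] C₁ := π.restrict fun b hb => hb
  have hπ₁ : IsEquivariant σ ρ₁ (MonoidHom.id G) π₁ := fun g b => Subtype.ext (hπ g (b : B))
  have hπ₁s : Function.Surjective π₁ := fun x => by
    obtain ⟨b, hb⟩ := hsurj (x : C)
    exact ⟨⟨b, show π b ∈ C₁ by rw [hb]; exact x.2⟩, Subtype.ext hb⟩
  obtain ⟨x₁, hx₁⟩ := hline σ ρ₁ π₁ hπ₁ hπ₁s
    (fun g hg b => Subtype.ext (hB g hg (b : B)))
    ⟨c, Submodule.mem_span_singleton_self c⟩ (fun e => hc0 (congrArg Subtype.val e))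
    (fun g => Subtype.ext (hc g))
    (fun x => by
      obtain ⟨r, hr⟩ := Submodule.mem_span_singleton.mp x.2
      exact ⟨r, Subtype.ext hr.symm⟩) y₁
  have hincl : IsEquivariant σ ρB (MonoidHom.id G) B₁.subtype := fun g b => rfl
  refine ⟨x + map2 σ ρB (isLevHom_id L) hincl x₁, ?_⟩
  rw [map_add, add_comm, ← eq_sub_iff_add_eq, ← hy₁, ← hx₁]
  induction x₁ using Submodule.Quotient.induction_on with
  | _ w => rfl

end

end FermatAgent.Duality
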