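import Fermat.Agent.Duality.Core.Shapiro
import Fermat.Agent.Duality.Core.Functorial
import Fermat.Agent.Duality.Core.Unipotent

/-!
# `H²` of a group as the coinvariants of `H²` of a normal subgroup

Assume `H²` is right exact on finite modules on which the normal subgroup `N` acts trivially. Then
corestriction `H²(N, M) → H²(G, M)` is surjective and its kernel is spanned by the `g u - u`.
-/

set_option autoImplicit false

namespace FermatAgent.Duality

open scoped Classical

noncomputable section

variable {p : ℕ} [Fact p.Prime] {G : Type} [Group G]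

variable (p) in
/-- `H²` is right exact on finite modules on which `N` acts trivially. -/
def RightExact2 (L : LevelSystem G) (N : Subgroup G) : Prop :=
  ∀ ⦃B C : Type⦄ [AddCommGroup B] [Module (ZMod p) B] [AddCommGroup C] [Module (ZMod p) C]
    [Finite B] (ρB : Representation (ZMod p) G B) (ρC : Representation (ZMod p) G C)
    (π : B →ₗ[ZMod p] C) (hπ : IsEquivariant ρB ρC (MonoidHom.id G) π),
    Function.Surjective π → TrivialOn N ρB →
      Function.Surjective (map2 ρB ρC (isLevHom_id L) hπ)

variable (L : LevelSystem G) (N : Subgroup G) [N.Normal]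

omit [N.Normal] in
/-- Right exactness may be checked on a subgroup of index prime to `p`. -/
theorem rightExact2_of_index (U : Subgroup G) [Fintype (G ⧸ U)] (hU : ∃ V ∈ L.lev, V ≤ U)
    (hidx : ¬p ∣ Fintype.card (G ⧸ U)) (h : RightExact2 p (L.comap U.subtype) (N.subgroupOf U)) :
    RightExact2 p L N := by
  intro B C _ _ _ _ _ ρB ρC π hπ hsurj hB x
  obtain ⟨b, hb⟩ := h (ρB.comp U.subtype) (ρC.comp U.subtype) π (isEquivariant_sub U hπ) hsurj
    (fun g hg m => hB (g : G) hg m) (res2 L ρC U x)
  have hne : (Fintype.card (G ⧸ U) : ZMod p) ≠ 0 := fun h0 =>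
    hidx ((CharP.cast_eq_zero_iff (ZMod p) p _).mp h0)
  refine ⟨(Fintype.card (G ⧸ U) : ZMod p)⁻¹ • cores2 U ρB L hU b, ?_⟩
  rw [map_smul, ← cores2_map2 U L hU hπ, hb, cores2_res2, ← Nat.cast_smul_eq_nsmul (ZMod p),
    smul_smul, inv_mul_cancel₀ hne, one_smul]

variable {M : Type} [AddCommGroup M] [Module (ZMod p) M] {ρ : Representation (ZMod p) G M}

lemma trivialOn_indRep (hρ : TrivialOn N ρ) : TrivialOn N (indRep N ρ) := fun n hn φ =>
  funext fun c => by
    rw [indRep_apply, smul_eq_of_mem_normal N inferInstance le_rfl (N.inv_mem hn), hρ n hn]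

variable [Fintype (G ⧸ N)] (hU : ∃ V ∈ L.lev, V ≤ N)

/-- Corestriction from `N` is surjective. -/
theorem cores2_surjective (h2 : RightExact2 p L N) [Finite M] (hρ : TrivialOn N ρ) :
    Function.Surjective (cores2 N ρ L hU) := by
  intro x
  obtain ⟨y, hy⟩ := h2 (indRep N ρ) ρ (indSum N) (isEquivariant_indSum N ρ) (indSum_surjective N)
    (trivialOn_indRep N hρ) x
  exact ⟨shapiro2 N ρ L y, by rw [← cores2_eq_indSum, shapiroInv2_shapiro2, hy]⟩

section ConjInvariance

variable (ρ) {k : Type*} [CommRing k]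

/-- Corestriction is invariant under conjugation. -/
theorem cores2_conj2 (g : G) (u : H2c (L.comap N.subtype) (ρ.comp N.subtype)) :
    cores2 N ρ L hU (conj2 L ρ N g u) = cores2 N ρ L hU u := by
  have gg : ∀ c : G ⧸ N, (QuotientGroup.mk (coresSec N c * g) : G ⧸ N) = c * QuotientGroup.mk g :=
    fun c => by rw [QuotientGroup.mk_mul, mk_coresSec]
  -- the section `c ↦ s (c g⁻¹) g`
  let t : G ⧸ N → N := fun c => ⟨(coresSec N c)⁻¹ *
    (coresSec N (c * (QuotientGroup.mk g)⁻¹) * g), by
      rw [← QuotientGroup.eq, mk_coresSec, gg, inv_mul_cancel_right]⟩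
  induction u using Submodule.Quotient.induction_on with
  | _ z =>
    obtain ⟨y, hy, hd⟩ := coresFun₂'_sub N ρ L t hU z.2
    refine (Submodule.Quotient.eq _).mpr ⟨y, hy, hd.trans (funext fun q => ?_)⟩
    obtain ⟨a, b⟩ := q
    show coresFun₂' N ρ t z.1 (a, b) - coresFun₂ N ρ z.1 (a, b) =
      coresFun₂ N ρ (fun r => ρ g (z.1 (conjInv N g r.1, conjInv N g r.2))) (a, b) -
        coresFun₂ N ρ z.1 (a, b)
    refine congrArg (· - _) ?_
    rw [coresFun₂_apply, coresFun₂']
    refine (Equiv.sum_comp (Equiv.mulRight (QuotientGroup.mk g : G ⧸ N)) _).symm.trans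
      (Finset.sum_congr rfl fun c _ => ?_)
    have hs : ∀ d : G ⧸ N, coresSec N (d * QuotientGroup.mk g) * (t (d * QuotientGroup.mk g) : G) =
        coresSec N d * g := fun d => by simp [t]
    have hsm : ∀ (x : G) (d : G ⧸ N), x⁻¹ • (d * QuotientGroup.mk g) =
        x⁻¹ • d * QuotientGroup.mk g := fun x d => by
      obtain ⟨e, rfl⟩ := QuotientGroup.mk_surjective d
      rw [← QuotientGroup.mk_mul, MulAction.Quotient.smul_mk, MulAction.Quotient.smul_mk,
        ← QuotientGroup.mk_mul, smul_eq_mul, smul_eq_mul, mul_assoc]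
    have hu : ∀ (x : G) (d : G ⧸ N),
        coresU' N t x (d * QuotientGroup.mk g) = conjInv N g (coresU N x d) := fun x d => by
      refine Subtype.ext (mul_left_cancel (a := coresSec N d * g) ?_)
      rw [← hs, coresSec'_mul_coresU', hsm, hs, hs]
      show _ = coresSec N d * g * (g⁻¹ * (coresU N x d : G) * g)
      rw [show coresSec N d * g * (g⁻¹ * (coresU N x d : G) * g) =
        coresSec N d * (coresU N x d : G) * g by group, coresSec_mul_coresU, mul_assoc]
    simp only [Equiv.coe_mulRight]
    rw [hs, hu, hsm, hu, map_mul, Module.End.mul_apply]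

end ConjInvariance

/-- The span of the `g u - u`. -/
def augH2 (ρ : Representation (ZMod p) G M) :
    Submodule (ZMod p) (H2c (L.comap N.subtype) (ρ.comp N.subtype)) :=
  ⨆ g : G, LinearMap.range (conj2 L ρ N g - LinearMap.id)

omit [Fintype (G ⧸ N)] in
/-- Evaluation at a coset is equivariant for a normal subgroup. -/
lemma isEquivariant_proj_coset (ρ : Representation (ZMod p) G M) (c : G ⧸ N) :
    IsEquivariant ((indRep N ρ).comp N.subtype) (ρ.comp N.subtype) (MonoidHom.id N)
      (LinearMap.proj c : (G ⧸ N → M) →ₗ[ZMod p] M) := fun n φ => by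
  show ρ n (φ ((n : G)⁻¹ • c)) = ρ n (φ c)
  rw [smul_eq_of_mem_normal N inferInstance le_rfl (N.inv_mem n.2)]

/-- The kernel of corestriction from `N` is spanned by the `g u - u`. -/
theorem ker_cores2 (h2 : RightExact2 p L N) [Finite M] (hρ : TrivialOn N ρ) :
    LinearMap.ker (cores2 N ρ L hU) = augH2 L N ρ := by
  refine le_antisymm (fun u hu => ?_) ?_
  swap
  · refine iSup_le fun g => ?_
    rintro _ ⟨u, rfl⟩
    simp [cores2_conj2 L N ρ hU g u]
  let W : Submodule (ZMod p) (G ⧸ N → M) := LinearMap.ker (indSum N)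
  have hW : ∀ g, W ≤ W.comap (indRep N ρ g) := fun g φ hφ => by
    show indSum N (indRep N ρ g φ) = 0
    have h := isEquivariant_indSum N ρ g φ
    simp only [MonoidHom.id_apply] at h
    rw [h, LinearMap.mem_ker.mp hφ, map_zero]
  let ρW := (indRep N ρ).subrepresentation W hW
  let S : SES ρW (indRep N ρ) ρ :=
    { incl := W.subtype
      proj := indSum N
      incl_equiv := fun _ _ => rfl
      proj_equiv := isEquivariant_indSum N ρ
      injective := W.subtype_injective
      surjective := indSum_surjective N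
      exact := fun φ => ⟨fun h => ⟨⟨φ, h⟩, rfl⟩, by rintro ⟨w, rfl⟩; exact w.2⟩ }
  have hI := trivialOn_indRep N hρ
  have hker : shapiroInv2 N ρ L hU u ∈ LinearMap.ker (S.p2 L) := by
    rw [LinearMap.mem_ker]
    exact (cores2_eq_indSum N ρ L hU u).trans hu
  rw [← S.range_i2 L (hI.isSmooth N hU)] at hker
  obtain ⟨a, ha⟩ := hker
  obtain ⟨z, hz⟩ := cores2_surjective L N hU h2
    (show TrivialOn N ρW from fun n hn w => Subtype.ext (hI n hn w.1)) a
  let y := map2 (ρW.comp N.subtype) ((indRep N ρ).comp N.subtype) (isLevHom_id _)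
    (isEquivariant_sub N S.isEquivariant_incl) z
  have e1 : shapiroInv2 N ρ L hU u = cores2 N (indRep N ρ) L hU y := by
    rw [cores2_map2 N L hU S.isEquivariant_incl, hz, ha]
  let w : G ⧸ N → H2c (L.comap N.subtype) (ρ.comp N.subtype) := fun c =>
    map2 _ _ (isLevHom_id _) (isEquivariant_proj_coset N ρ c) y
  have hw : ∑ c, w c = 0 := by
    have h1 : map2 _ _ (isLevHom_id _) (isEquivariant_sub N (isEquivariant_indSum N ρ)) y =
        ∑ c, w c :=
      map2_eq_sum _ _ (fun c => isEquivariant_proj_coset N ρ c) rfl y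
    rw [← h1]
    induction z using Submodule.Quotient.induction_on with
    | _ z =>
      refine (congrArg (cl2 (L.comap N.subtype) (ρ.comp N.subtype))
        (Subtype.ext (funext fun q => ?_))).trans (map_zero _)
      exact (z.1 q).2
  have key : u = ∑ c : G ⧸ N, conj2 L ρ N (coresSec N c) (w c⁻¹) := by
    rw [← shapiro2_shapiroInv2 N ρ L hU u, e1, shapiro2, LinearMap.comp_apply, res2_cores2,
      map_sum]
    refine Finset.sum_congr rfl fun c _ => ?_
    simp only [w, conj2, map2_map2]
    refine map2_congr _ _ (fun _ => rfl) (fun φ => ?_) y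
    show indRep N ρ (coresSec N c) φ (baseCoset N) = ρ (coresSec N c) (φ c⁻¹)
    rw [indRep_apply, smul_baseCoset]
    exact congrArg (fun d => ρ (coresSec N c) (φ d))
      ((QuotientGroup.mk_inv N _).trans (congrArg Inv.inv (mk_coresSec N c)))
  have key2 : u = ∑ c : G ⧸ N,
      (conj2 L ρ N (coresSec N c) - LinearMap.id : _ →ₗ[ZMod p] _) (w c⁻¹) := by
    simp only [LinearMap.sub_apply, LinearMap.id_apply, Finset.sum_sub_distrib, ← key]
    rw [show ∑ c : G ⧸ N, w c⁻¹ = 0 from (Equiv.sum_comp (Equiv.inv (G ⧸ N)) w).trans hw, sub_zero]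
  rw [key2]
  exact Submodule.sum_mem _ fun c _ => Submodule.mem_iSup_of_mem (coresSec N c) ⟨_, rfl⟩

end

end FermatAgent.Duality
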