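import Fermat.Agent.Duality.Core.Maps
import Mathlib.LinearAlgebra.Basis.VectorSpace
import Mathlib.RepresentationTheory.Invariants
import Mathlib.Data.Set.Finite.Range

/-!
# The long exact sequence in degrees `≤ 2` of a short exact sequence of smooth representations
-/

set_option autoImplicit false

namespace FermatAgent.Duality

section Range

variable {k G M : Type*} [CommRing k] [Group G] [AddCommGroup M] [Module k M]
variable {L : LevelSystem G}

lemma IsLev₁.finite_range {X : Type*} {f : G → X} (hf : IsLev₁ L f) : (Set.range f).Finite := by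
  obtain ⟨U, hU, h⟩ := hf
  have := L.finiteIndex hU
  have : Finite (G ⧸ U) := Subgroup.finite_quotient_of_finiteIndex
  refine (Set.finite_range fun c : G ⧸ U => f c.out).subset ?_
  rintro _ ⟨g, rfl⟩
  obtain ⟨u, hu⟩ := QuotientGroup.mk_out_eq_mul U g
  exact ⟨g, by simp only [hu, h g u u.2]⟩

lemma IsSmooth.exists_lev_fix {ρ : Representation k G M} (hρ : IsSmooth L ρ) {t : Set M}
    (ht : t.Finite) : ∃ U ∈ L.lev, ∀ s ∈ U, ∀ m ∈ t, ρ s m = m := by
  induction t, ht using Set.Finite.induction_on with
  | empty => exact ⟨_, L.exists_mem.choose_spec, fun _ _ _ h => h.elim⟩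
  | @insert a t _ _ ih =>
    obtain ⟨U, hU, h⟩ := ih
    obtain ⟨V, hV, hV'⟩ := hρ a
    obtain ⟨W, hW, hle⟩ := L.inf_mem hU hV
    exact ⟨W, hW, fun s hs m hm => hm.elim (fun e => e ▸ hV' s (hle hs).2) (h s (hle hs).1 m)⟩

lemma IsSmooth.dd₀_isLev {ρ : Representation k G M} (hρ : IsSmooth L ρ) (m : M) :
    IsLev₁ L (dd₀ ρ m) := by
  obtain ⟨U, hU, h⟩ := hρ m
  exact ⟨U, hU, fun g s hs => by simp [map_mul, h s hs]⟩

lemma IsSmooth.dd₁_isLev {ρ : Representation k G M} (hρ : IsSmooth L ρ) {x : G → M}
    (hx : IsLev₁ L x) : IsLev₂ L (dd₁ ρ x) := by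
  obtain ⟨U₀, hU₀, hfix⟩ := hρ.exists_lev_fix hx.finite_range
  obtain ⟨U₁, hU₁, h⟩ := hx
  obtain ⟨U₂, hU₂, hle⟩ := L.inf_mem hU₀ hU₁
  obtain ⟨W, hW, hle', hn⟩ := L.exists_normal hU₂
  refine ⟨W, hW, fun g g' s hs s' hs' => ?_⟩
  have e1 : ρ (g * s) (x (g' * s')) = ρ g (x g') := by
    rw [h g' s' (hle (hle' hs')).2, map_mul, Module.End.mul_apply,
      hfix s (hle (hle' hs)).1 _ ⟨g', rfl⟩]
  have e2 : x (g * s * (g' * s')) = x (g * g') := by
    rw [show g * s * (g' * s') = g * g' * (g'⁻¹ * s * g' * s') by group]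
    exact h _ _ (hle (hle' (W.mul_mem (by simpa using hn.conj_mem s hs g'⁻¹) hs'))).2
  simp only [dd₁_apply, e1, e2, h g s (hle (hle' hs)).2]

lemma dd₁_cocycle (ρ : Representation k G M) (x : G → M) (g h j : G) :
    dd₁ ρ x (g * h, j) + dd₁ ρ x (g, h) = ρ g (dd₁ ρ x (h, j)) + dd₁ ρ x (g, h * j) := by
  simp only [dd₁_apply, map_add, map_sub, map_mul, Module.End.mul_apply, mul_assoc]
  abel

end Range

/-- A short exact sequence of representations with linear splittings. -/
structure SES {k G : Type*} [Field k] [Group G] {A B C : Type*} [AddCommGroup A] [Module k A]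
    [AddCommGroup B] [Module k B] [AddCommGroup C] [Module k C] (ρA : Representation k G A)
    (ρB : Representation k G B) (ρC : Representation k G C) where
  incl : A →ₗ[k] B
  proj : B →ₗ[k] C
  incl_equiv : ∀ g a, incl (ρA g a) = ρB g (incl a)
  proj_equiv : ∀ g b, proj (ρB g b) = ρC g (proj b)
  injective : Function.Injective incl
  surjective : Function.Surjective proj
  exact : Function.Exact incl proj

namespace SES

noncomputable section

variable {k G : Type*} [Field k] [Group G] {A B C : Type*} [AddCommGroup A] [Module k A]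
  [AddCommGroup B] [Module k B] [AddCommGroup C] [Module k C] {ρA : Representation k G A}
  {ρB : Representation k G B} {ρC : Representation k G C} (S : SES ρA ρB ρC)
  (L : LevelSystem G)

/-- A linear section of the projection. -/
def sec : C →ₗ[k] B :=
  (S.proj.exists_rightInverse_of_surjective (LinearMap.range_eq_top.mpr S.surjective)).choose

@[simp] lemma proj_sec (c : C) : S.proj (S.sec c) = c :=
  LinearMap.congr_fun
    (S.proj.exists_rightInverse_of_surjective (LinearMap.range_eq_top.mpr S.surjective)).choose_spec c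

/-- A linear retraction of the inclusion. -/
def ret : B →ₗ[k] A :=
  (S.incl.exists_leftInverse_of_injective (LinearMap.ker_eq_bot.mpr S.injective)).choose

@[simp] lemma ret_incl (a : A) : S.ret (S.incl a) = a :=
  LinearMap.congr_fun
    (S.incl.exists_leftInverse_of_injective (LinearMap.ker_eq_bot.mpr S.injective)).choose_spec a

@[simp] lemma proj_incl (a : A) : S.proj (S.incl a) = 0 := S.exact.apply_apply_eq_zero a

lemma incl_ret {b : B} (hb : S.proj b = 0) : S.incl (S.ret b) = b := by
  obtain ⟨a, rfl⟩ := (S.exact b).mp hb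
  rw [S.ret_incl]

variable {L} in
/-- A level-constant function killed by the projection comes from the kernel. -/
lemma exists_lift_lev₁ {f : G → B} (hf : IsLev₁ L f) (h : ∀ g, S.proj (f g) = 0) :
    ∃ u : G → A, IsLev₁ L u ∧ ∀ g, S.incl (u g) = f g :=
  ⟨S.ret ∘ f, hf.comp S.ret, fun g => S.incl_ret (h g)⟩

lemma isEquivariant_incl : IsEquivariant ρA ρB (MonoidHom.id G) S.incl := S.incl_equiv
lemma isEquivariant_proj : IsEquivariant ρB ρC (MonoidHom.id G) S.proj := S.proj_equiv

/-- The map induced by the inclusion in degree `1`. -/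
abbrev i1 : H1c L ρA →ₗ[k] H1c L ρB := map1 ρA ρB (isLevHom_id L) S.isEquivariant_incl
/-- The map induced by the projection in degree `1`. -/
abbrev p1 : H1c L ρB →ₗ[k] H1c L ρC := map1 ρB ρC (isLevHom_id L) S.isEquivariant_proj
/-- The map induced by the inclusion in degree `2`. -/
abbrev i2 : H2c L ρA →ₗ[k] H2c L ρB := map2 ρA ρB (isLevHom_id L) S.isEquivariant_incl
/-- The map induced by the projection in degree `2`. -/
abbrev p2 : H2c L ρB →ₗ[k] H2c L ρC := map2 ρB ρC (isLevHom_id L) S.isEquivariant_proj

variable (hB : IsSmooth L ρB)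

lemma proj_dd₀_sec {c : C} (hc : ∀ g, ρC g c = c) (g : G) :
    S.proj (dd₀ ρB (S.sec c) g) = 0 := by
  simp [dd₀_apply, map_sub, S.proj_equiv, hc]

/-- The connecting cochain in degree `0`. -/
def delta₀Fun : C →ₗ[k] (G → A) where
  toFun c g := S.ret (dd₀ ρB (S.sec c) g)
  map_add' a b := by ext g; simp only [map_add, Pi.add_apply]
  map_smul' r a := by ext g; simp only [map_smul, Pi.smul_apply, RingHom.id_apply]

lemma incl_delta₀Fun {c : C} (hc : ∀ g, ρC g c = c) (g : G) :
    S.incl (S.delta₀Fun c g) = dd₀ ρB (S.sec c) g :=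
  S.incl_ret (S.proj_dd₀_sec hc g)

include hB in
lemma delta₀Fun_mem {c : C} (hc : ∀ g, ρC g c = c) : S.delta₀Fun c ∈ Z1 L ρA := by
  refine ⟨(hB.dd₀_isLev (S.sec c)).comp S.ret, fun g h => S.injective ?_⟩
  simp only [map_add, S.incl_equiv, S.incl_delta₀Fun hc]
  simp [dd₀_apply, map_mul, map_sub]

/-- The connecting map in degree `0`. -/
def delta₀ : ρC.invariants →ₗ[k] H1c L ρA :=
  (cl1 L ρA) ∘ₗ
    { toFun := fun c => ⟨S.delta₀Fun c.1, S.delta₀Fun_mem L hB c.2⟩
      map_add' := fun a b => Subtype.ext (map_add S.delta₀Fun a.1 b.1)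
      map_smul' := fun r a => Subtype.ext (map_smul S.delta₀Fun r a.1) }

lemma delta₀_eq_zero_iff (c : ρC.invariants) :
    S.delta₀ L hB c = 0 ↔ ∃ b ∈ ρB.invariants, S.proj b = c.1 := by
  rw [delta₀, LinearMap.comp_apply, cl1_eq_zero_iff]
  constructor
  · rintro ⟨a, ha⟩
    refine ⟨S.sec c.1 - S.incl a, fun g => ?_, by simp⟩
    have := congrArg S.incl (congrFun ha g)
    simp only [dd₀_apply, map_sub, S.incl_equiv, LinearMap.coe_mk, AddHom.coe_mk,
      S.incl_delta₀Fun c.2] at this
    rw [map_sub, sub_eq_sub_iff_sub_eq_sub]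
    exact this.symm
  · rintro ⟨b, hb, hbc⟩
    refine ⟨S.ret (S.sec c.1 - b), funext fun g => S.injective ?_⟩
    have he : S.incl (S.ret (S.sec c.1 - b)) = S.sec c.1 - b := S.incl_ret (by simp [hbc])
    simp only [LinearMap.coe_mk, AddHom.coe_mk, S.incl_delta₀Fun c.2, dd₀_apply]
    rw [S.incl.map_sub, S.incl_equiv, he, map_sub, hb g]
    abel

lemma range_delta₀ : LinearMap.range (S.delta₀ L hB) = LinearMap.ker (S.i1 L) := by
  ext x
  induction x using Submodule.Quotient.induction_on with
  | _ z =>
    rw [LinearMap.mem_range, LinearMap.mem_ker]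
    change _ ↔ cl1 L ρB _ = 0
    rw [cl1_eq_zero_iff]
    constructor
    · rintro ⟨c, hc⟩
      obtain ⟨a, ha⟩ := (Submodule.Quotient.eq _).mp hc
      refine ⟨S.sec c.1 - S.incl a, funext fun g => ?_⟩
      have := congrArg S.incl (congrFun ha g)
      simp only [dd₀_apply, map_sub, S.incl_equiv, LinearMap.coe_mk, AddHom.coe_mk,
        Submodule.subtype_apply, Pi.sub_apply,
        S.incl_delta₀Fun c.2] at this
      simp only [mapZ1_apply, MonoidHom.id_apply, dd₀_apply, map_sub]
      linear_combination (norm := abel) -this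
    · rintro ⟨b, hb⟩
      have hc : ∀ g, ρC g (S.proj b) = S.proj b := fun g => by
        have := congrArg S.proj (congrFun hb g)
        simp only [mapZ1_apply, dd₀_apply, map_sub, S.proj_equiv, S.proj_incl] at this
        exact sub_eq_zero.mp this
      refine ⟨⟨S.proj b, hc⟩, (Submodule.Quotient.eq _).mpr
        ⟨S.ret (S.sec (S.proj b) - b), funext fun g => S.injective ?_⟩⟩
      have he : S.incl (S.ret (S.sec (S.proj b) - b)) = S.sec (S.proj b) - b :=
        S.incl_ret (by simp)
      have hb' := congrFun hb g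
      simp only [mapZ1_apply, MonoidHom.id_apply, dd₀_apply] at hb'
      simp only [LinearMap.coe_mk, AddHom.coe_mk, Submodule.subtype_apply,
        AddSubgroupClass.coe_sub, Pi.sub_apply, dd₀_apply]
      rw [S.incl.map_sub, S.incl.map_sub, S.incl_delta₀Fun hc, dd₀_apply, S.incl_equiv, he, map_sub,
        ← hb']
      abel

include hB in
lemma range_i1 : LinearMap.range (S.i1 L) = LinearMap.ker (S.p1 L) := by
  ext x
  induction x using Submodule.Quotient.induction_on with
  | _ z =>
    rw [LinearMap.mem_range, LinearMap.mem_ker]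
    change _ ↔ cl1 L ρC _ = 0
    rw [cl1_eq_zero_iff]
    constructor
    · rintro ⟨y, hy⟩
      induction y using Submodule.Quotient.induction_on with
      | _ w =>
        obtain ⟨b, hb⟩ := (Submodule.Quotient.eq _).mp hy
        refine ⟨-S.proj b, funext fun g => ?_⟩
        have := congrArg S.proj (congrFun hb g)
        simp only [dd₀_apply, map_sub, S.proj_equiv, Submodule.subtype_apply,
          Pi.sub_apply, mapZ1_apply, S.proj_incl, zero_sub] at this
        simp only [mapZ1_apply, MonoidHom.id_apply, dd₀_apply, map_neg]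
        linear_combination (norm := abel) -this
    · rintro ⟨c, hc⟩
      -- subtract the coboundary of a lift of `c`
      have hmem : ∀ g, S.proj (z.1 g - dd₀ ρB (S.sec c) g) = 0 := fun g => by
        have := congrFun hc g
        simp only [mapZ1_apply, MonoidHom.id_apply, dd₀_apply] at this
        simp [dd₀_apply, map_sub, S.proj_equiv, this]
      have hw : (fun g => S.ret (z.1 g - dd₀ ρB (S.sec c) g)) ∈ Z1 L ρA := by
        refine ⟨?_, fun g h => S.injective ?_⟩
        · obtain ⟨U, hU, h⟩ := z.2.1
          obtain ⟨V, hV, hV'⟩ := hB (S.sec c)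
          obtain ⟨W, hW, hle⟩ := L.inf_mem hU hV
          exact ⟨W, hW, fun g s hs => by
            simp [h g s (hle hs).1, map_mul, hV' s (hle hs).2]⟩
        · simp only [map_add, S.incl_equiv, S.incl_ret (hmem _)]
          simp only [z.2.2, dd₀_apply, map_mul, map_sub, Module.End.mul_apply]
          abel
      refine ⟨cl1 L ρA ⟨_, hw⟩, (Submodule.Quotient.eq _).mpr ⟨-S.sec c, funext fun g => ?_⟩⟩
      simp only [Submodule.subtype_apply, AddSubgroupClass.coe_sub, Pi.sub_apply, mapZ1_apply,
        MonoidHom.id_apply]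
      rw [S.incl_ret (hmem g)]
      simp only [dd₀_apply, map_neg]
      abel

lemma proj_dd₁_sec {x : G → C} (hx : ∀ g h, x (g * h) = ρC g (x h) + x g) (q : G × G) :
    S.proj (dd₁ ρB (S.sec ∘ x) q) = 0 := by
  obtain ⟨g, h⟩ := q
  simp [dd₁_apply, map_sub, map_add, S.proj_equiv, hx]

include hB in
lemma delta₁Fun_mem {x : G → C} (hx : x ∈ Z1 L ρC) :
    S.ret ∘ dd₁ ρB (S.sec ∘ x) ∈ Z2 L ρA := by
  refine ⟨(hB.dd₁_isLev (hx.1.comp S.sec)).comp S.ret, fun g h j => S.injective ?_⟩
  simp only [Function.comp_apply, map_add, S.incl_equiv, S.incl_ret (S.proj_dd₁_sec hx.2 _)]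
  exact dd₁_cocycle ρB _ g h j

/-- The connecting cochain in degree `1`. -/
def delta₁Z : Z1 L ρC →ₗ[k] Z2 L ρA where
  toFun x := ⟨S.ret ∘ dd₁ ρB (S.sec ∘ x.1), S.delta₁Fun_mem L hB x.2⟩
  map_add' a b := by
    refine Subtype.ext (funext fun q => ?_)
    show S.ret (dd₁ ρB (S.sec ∘ (a.1 + b.1)) q) = _
    rw [show S.sec ∘ (a.1 + b.1) = S.sec ∘ a.1 + S.sec ∘ b.1 by ext g; simp, map_add]
    exact map_add S.ret _ _
  map_smul' r a := by
    refine Subtype.ext (funext fun q => ?_)
    show S.ret (dd₁ ρB (S.sec ∘ (r • a.1)) q) = _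
    rw [show S.sec ∘ (r • a.1) = r • (S.sec ∘ a.1) by ext g; simp, map_smul]
    exact map_smul S.ret _ _

lemma incl_delta₁Z (x : Z1 L ρC) (q : G × G) :
    S.incl ((S.delta₁Z L hB x).1 q) = dd₁ ρB (S.sec ∘ x.1) q :=
  S.incl_ret (S.proj_dd₁_sec x.2.2 q)

/-- The connecting map in degree `1`. -/
def delta₁ : H1c L ρC →ₗ[k] H2c L ρA :=
  Submodule.mapQ _ _ (S.delta₁Z L hB) <| by
    rintro x ⟨c, hc⟩
    obtain ⟨u, hu, hu'⟩ := S.exists_lift_lev₁
      ((x.2.1.comp S.sec).add ((hB.dd₀_isLev (S.sec c)).comp (fun b => -b)))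
      (fun g => by
        have := congrFun hc g
        simp only [Submodule.subtype_apply, dd₀_apply] at this
        simp only [Pi.add_apply, Function.comp_apply, dd₀_apply, map_add, map_sub, map_neg,
          S.proj_equiv, proj_sec]
        linear_combination (norm := abel) -this)
    refine ⟨u, hu, funext fun q => S.injective ?_⟩
    rw [Submodule.subtype_apply, S.incl_delta₁Z]
    obtain ⟨g, h⟩ := q
    simp only [dd₁_apply, map_add, map_sub, map_neg, S.incl_equiv, hu', Function.comp_apply,
      Pi.add_apply, dd₀_apply, map_mul, Module.End.mul_apply]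
    abel

lemma delta₁_cl1 (x : Z1 L ρC) :
    S.delta₁ L hB (cl1 L ρC x) = cl2 L ρA (S.delta₁Z L hB x) := rfl

lemma range_p1 : LinearMap.range (S.p1 L) = LinearMap.ker (S.delta₁ L hB) := by
  ext x
  induction x using Submodule.Quotient.induction_on with
  | _ z =>
    rw [LinearMap.mem_range, LinearMap.mem_ker]
    change _ ↔ cl2 L ρA _ = 0
    rw [cl2_eq_zero_iff]
    constructor
    · rintro ⟨y, hy⟩
      induction y using Submodule.Quotient.induction_on with
      | _ w =>
        obtain ⟨c, hc⟩ := (Submodule.Quotient.eq _).mp hy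
        obtain ⟨u, hu, hu'⟩ := S.exists_lift_lev₁
          (((z.2.1.comp S.sec).add (w.2.1.comp fun b => -b)).add (hB.dd₀_isLev (S.sec c)))
          (fun g => by
            have := congrFun hc g
            simp only [Submodule.subtype_apply, AddSubgroupClass.coe_sub, Pi.sub_apply, mapZ1_apply,
              MonoidHom.id_apply, dd₀_apply] at this
            simp only [Pi.add_apply, Function.comp_apply, dd₀_apply, map_add, map_sub, map_neg,
              S.proj_equiv, proj_sec]
            linear_combination (norm := abel) this)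
        refine ⟨u, hu, funext fun q => S.injective ?_⟩
        obtain ⟨g, h⟩ := q
        rw [S.incl_delta₁Z]
        simp only [dd₁_apply, map_add, map_sub, map_neg, S.incl_equiv, hu', Pi.add_apply,
          Function.comp_apply, dd₀_apply, map_mul, Module.End.mul_apply, w.2.2 g h]
        abel
    · rintro ⟨y, hy, hd⟩
      have hw : (fun g => S.sec (z.1 g) - S.incl (y g)) ∈ Z1 L ρB := by
        refine ⟨by simpa [Function.comp_def, sub_eq_add_neg, Pi.add_def] using
          (z.2.1.comp S.sec).add (hy.comp fun a => -S.incl a), fun g h => ?_⟩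
        have := congrArg S.incl (congrFun hd (g, h))
        rw [S.incl_delta₁Z] at this
        simp only [dd₁_apply, map_add, map_sub, S.incl_equiv, Function.comp_apply] at this
        simp only [map_sub]
        linear_combination (norm := abel) this
      refine ⟨cl1 L ρB ⟨_, hw⟩, (Submodule.Quotient.eq _).mpr ⟨0, funext fun g => ?_⟩⟩
      simp [mapZ1_apply]

lemma range_delta₁ : LinearMap.range (S.delta₁ L hB) = LinearMap.ker (S.i2 L) := by
  ext x
  induction x using Submodule.Quotient.induction_on with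
  | _ z =>
    rw [LinearMap.mem_range, LinearMap.mem_ker]
    change _ ↔ cl2 L ρB _ = 0
    rw [cl2_eq_zero_iff]
    constructor
    · rintro ⟨y, hy⟩
      induction y using Submodule.Quotient.induction_on with
      | _ w =>
        obtain ⟨u, hu, hd⟩ := (Submodule.Quotient.eq _).mp hy
        refine ⟨S.sec ∘ w.1 - S.incl ∘ u, by
          simpa [sub_eq_add_neg, Function.comp_def, Pi.add_def, Pi.neg_def] using
            (w.2.1.comp S.sec).add (hu.comp fun a => -S.incl a), funext fun q => ?_⟩
        have := congrArg S.incl (congrFun hd q)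
        simp only [Submodule.subtype_apply, Pi.sub_apply, map_sub,
          S.incl_delta₁Z] at this
        obtain ⟨g, h⟩ := q
        simp only [mapZ2_apply, MonoidHom.id_apply, map_sub, Pi.sub_apply, dd₁_apply,
          Function.comp_apply, map_add, S.incl_equiv] at this ⊢
        linear_combination (norm := abel) -this
    · rintro ⟨y, hy, hd⟩
      have hc : S.proj ∘ y ∈ Z1 L ρC := by
        refine ⟨hy.comp S.proj, fun g h => ?_⟩
        have := congrArg S.proj (congrFun hd (g, h))
        simp only [dd₁_apply, map_add, map_sub, mapZ2_apply, S.proj_incl, S.proj_equiv] at this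
        simp only [Function.comp_apply]
        linear_combination (norm := abel) -this
      refine ⟨cl1 L ρC ⟨_, hc⟩, ?_⟩
      rw [delta₁_cl1]
      obtain ⟨u, hu, hu'⟩ := S.exists_lift_lev₁
        ((hy.comp (S.sec ∘ₗ S.proj)).add (hy.comp fun b => -b))
        (fun g => by simp)
      refine (Submodule.Quotient.eq _).mpr ⟨u, hu, funext fun q => ?_⟩
      apply S.injective
      obtain ⟨g, h⟩ := q
      have hd' := congrFun hd (g, h)
      simp only [dd₁_apply, mapZ2_apply, MonoidHom.id_apply] at hd'
      simp only [Submodule.subtype_apply, Pi.sub_apply, map_sub,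
        S.incl_delta₁Z, dd₁_apply, map_add, map_neg, S.incl_equiv, hu', Function.comp_apply,
        Pi.add_apply, LinearMap.coe_comp, ← hd']
      abel

include hB in
lemma range_i2 : LinearMap.range (S.i2 L) = LinearMap.ker (S.p2 L) := by
  ext x
  induction x using Submodule.Quotient.induction_on with
  | _ z =>
    rw [LinearMap.mem_range, LinearMap.mem_ker]
    change _ ↔ cl2 L ρC _ = 0
    rw [cl2_eq_zero_iff]
    constructor
    · rintro ⟨y, hy⟩
      induction y using Submodule.Quotient.induction_on with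
      | _ w =>
        obtain ⟨u, hu, hd⟩ := (Submodule.Quotient.eq _).mp hy
        refine ⟨fun g => -S.proj (u g), hu.comp fun b => -S.proj b, funext fun q => ?_⟩
        obtain ⟨g, h⟩ := q
        have := congrArg S.proj (congrFun hd (g, h))
        simp only [Submodule.subtype_apply, Pi.sub_apply, map_sub,
          mapZ2_apply, dd₁_apply, map_add, S.proj_equiv, S.proj_incl, zero_sub] at this
        simp only [dd₁_apply, mapZ2_apply, MonoidHom.id_apply, map_neg] at this ⊢
        linear_combination (norm := abel) -this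
    · rintro ⟨y, hy, hd⟩
      have hw0 : ∀ q, S.proj (z.1 q - dd₁ ρB (S.sec ∘ y) q) = 0 := fun q => by
        obtain ⟨g, h⟩ := q
        have := congrFun hd (g, h)
        simp only [dd₁_apply, mapZ2_apply, MonoidHom.id_apply] at this
        simp [dd₁_apply, map_sub, map_add, S.proj_equiv, ← this]
      have hw : (fun q => S.ret (z.1 q - dd₁ ρB (S.sec ∘ y) q)) ∈ Z2 L ρA := by
        refine ⟨?_, fun g h j => S.injective ?_⟩
        · simpa [sub_eq_add_neg, Function.comp_def, Pi.add_def] using
            (z.2.1.add ((hB.dd₁_isLev (hy.comp S.sec)).comp fun b => -b)).comp S.ret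
        · simp only [map_add, S.incl_equiv, S.incl_ret (hw0 _)]
          have h1 := z.2.2 g h j
          have h2 := dd₁_cocycle ρB (S.sec ∘ y) g h j
          simp only [map_sub]
          linear_combination (norm := abel) h1 - h2
      refine ⟨cl2 L ρA ⟨_, hw⟩, (Submodule.Quotient.eq _).mpr ⟨fun g => -S.sec (y g),
        hy.comp fun c => -S.sec c, funext fun q => ?_⟩⟩
      simp only [Submodule.subtype_apply, AddSubgroupClass.coe_sub, Pi.sub_apply, mapZ2_apply,
        MonoidHom.id_apply, S.incl_ret (hw0 _)]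
      obtain ⟨g, h⟩ := q
      simp only [dd₁_apply, Function.comp_apply, map_neg]
      abel

end

end SES

end FermatAgent.Duality
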