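import Fermat.Agent.Duality.Core.Cores
import Fermat.Agent.Duality.Core.Les

/-!
# Conjugation, the change of section in corestriction, and `cores ∘ res`
-/

set_option autoImplicit false

namespace FermatAgent.Duality

noncomputable section

variable {k G : Type*} [CommRing k] [Group G] (L : LevelSystem G)
variable {M : Type*} [AddCommGroup M] [Module k M] (ρ : Representation k G M)

section Conj

variable (N : Subgroup G) [N.Normal]

/-- Conjugation `n ↦ g⁻¹ n g` on a normal subgroup. -/
def conjInv (g : G) : N →* N where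
  toFun n := ⟨g⁻¹ * n * g, by
    simpa using (inferInstance : N.Normal).conj_mem _ n.2 g⁻¹⟩
  map_one' := Subtype.ext (by simp)
  map_mul' a b := Subtype.ext (by simp [mul_assoc])

lemma isLevHom_conjInv (g : G) :
    IsLevHom (L.comap N.subtype) (L.comap N.subtype) (conjInv N g) := by
  rintro _ ⟨U, hU, rfl⟩
  obtain ⟨V, hV, hle, hn⟩ := L.exists_normal hU
  exact ⟨_, ⟨V, hV, rfl⟩, fun n hn' => hle (by simpa [conjInv] using hn.conj_mem _ hn' g⁻¹)⟩

lemma isEquivariant_conjInv (g : G) :
    IsEquivariant (ρ.comp N.subtype) (ρ.comp N.subtype) (conjInv N g) (ρ g) := by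
  intro n m
  simp only [MonoidHom.coe_comp, Subgroup.coe_subtype, Function.comp_apply, conjInv,
    MonoidHom.coe_mk, OneHom.coe_mk, ← Module.End.mul_apply, ← map_mul]
  congr 2
  group

/-- The action of `G` on the cohomology of a normal subgroup, in degree `1`. -/
def conj1 (g : G) :
    H1c (L.comap N.subtype) (ρ.comp N.subtype) →ₗ[k] H1c (L.comap N.subtype) (ρ.comp N.subtype) :=
  map1 _ _ (isLevHom_conjInv L N g) (isEquivariant_conjInv ρ N g)

/-- The action of `G` on the cohomology of a normal subgroup, in degree `2`. -/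
def conj2 (g : G) :
    H2c (L.comap N.subtype) (ρ.comp N.subtype) →ₗ[k] H2c (L.comap N.subtype) (ρ.comp N.subtype) :=
  map2 _ _ (isLevHom_conjInv L N g) (isEquivariant_conjInv ρ N g)

end Conj

end

end FermatAgent.Duality
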