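import Fermat.Agent.Duality.Core.Maps
import Mathlib.Algebra.BigOperators.Finprod
import Mathlib.GroupTheory.GroupAction.Quotient

/-!
# Corestriction in degrees `1` and `2`

With a section `s` of `G → G ⧸ U`, writing `g · s (g⁻¹ c) = s c · u(g, c)` with `u(g, c) ∈ U`, the
corestriction is `x ↦ (g ↦ ∑_c s c • x (u (g, c)))` and similarly in degree `2`.
-/

set_option autoImplicit false

namespace FermatAgent.Duality

open scoped Classical

noncomputable section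

variable {k G : Type*} [CommRing k] [Group G] (U : Subgroup G)

/-- The fixed section of `G → G ⧸ U`. -/
def coresSec (c : G ⧸ U) : G := Quotient.out c

lemma mk_coresSec (c : G ⧸ U) : QuotientGroup.mk (coresSec U c) = c := QuotientGroup.out_eq' c

/-- The element `u(g, c) = s(c)⁻¹ g s(g⁻¹ c)` of `U`. -/
def coresU (g : G) (c : G ⧸ U) : U :=
  ⟨(coresSec U c)⁻¹ * (g * coresSec U (g⁻¹ • c)), by
    rw [← QuotientGroup.eq, mk_coresSec, ← smul_eq_mul g, ← MulAction.Quotient.smul_mk, mk_coresSec,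
      smul_inv_smul]⟩

lemma coresSec_mul_coresU (g : G) (c : G ⧸ U) :
    coresSec U c * (coresU U g c : G) = g * coresSec U (g⁻¹ • c) := by
  simp [coresU, ← mul_assoc]

lemma coresU_mul (g h : G) (c : G ⧸ U) :
    coresU U (g * h) c = coresU U g c * coresU U h (g⁻¹ • c) := by
  refine Subtype.ext (mul_left_cancel (a := coresSec U c) ?_)
  rw [coresSec_mul_coresU, Subgroup.coe_mul, ← mul_assoc (coresSec U c), coresSec_mul_coresU,
    mul_assoc g (coresSec U _), coresSec_mul_coresU, mul_inv_rev, mul_smul, mul_assoc]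

lemma smul_eq_of_mem_normal {V : Subgroup G} (hn : V.Normal) (hVU : V ≤ U) {v : G} (hv : v ∈ V)
    (c : G ⧸ U) : v • c = c := by
  obtain ⟨g, rfl⟩ := QuotientGroup.mk_surjective c
  rw [MulAction.Quotient.smul_mk, smul_eq_mul, QuotientGroup.eq]
  have := hn.conj_mem _ (V.inv_mem hv) g⁻¹
  exact hVU (by simpa [mul_assoc] using this)

lemma inv_mul_smul_of_mem_normal {V : Subgroup G} (hn : V.Normal) (hVU : V ≤ U) (g : G) {v : G}
    (hv : v ∈ V) (c : G ⧸ U) : (g * v)⁻¹ • c = g⁻¹ • c := by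
  rw [mul_inv_rev, mul_smul, smul_eq_of_mem_normal U hn hVU (V.inv_mem hv)]

lemma coe_coresU_mem_normal {V : Subgroup G} (hn : V.Normal) (hVU : V ≤ U) {v : G} (hv : v ∈ V)
    (c : G ⧸ U) : ((coresU U v c : U) : G) ∈ V := by
  simp only [coresU, smul_eq_of_mem_normal U hn hVU (V.inv_mem hv)]
  simpa [mul_assoc] using hn.conj_mem _ hv (coresSec U c)⁻¹

variable {M : Type*} [AddCommGroup M] [Module k M] (ρ : Representation k G M)
variable [Fintype (G ⧸ U)] (L : LevelSystem G) (hU : ∃ V ∈ L.lev, V ≤ U)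

/-- Corestriction of `1`-cochains. -/
def coresFun₁ : (U → M) →ₗ[k] (G → M) where
  toFun x g := ∑ c : G ⧸ U, ρ (coresSec U c) (x (coresU U g c))
  map_add' a b := by ext g; simp [Finset.sum_add_distrib]
  map_smul' r a := by ext g; simp [Finset.smul_sum]

/-- Corestriction of `2`-cochains. -/
def coresFun₂ : (U × U → M) →ₗ[k] (G × G → M) where
  toFun x q := ∑ c : G ⧸ U,
    ρ (coresSec U c) (x (coresU U q.1 c, coresU U q.2 (q.1⁻¹ • c)))
  map_add' a b := by ext g; simp [Finset.sum_add_distrib]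
  map_smul' r a := by ext g; simp [Finset.smul_sum]

lemma coresFun₁_apply (x : U → M) (g : G) :
    coresFun₁ U ρ x g = ∑ c : G ⧸ U, ρ (coresSec U c) (x (coresU U g c)) := rfl

lemma coresFun₂_apply (x : U × U → M) (g h : G) :
    coresFun₂ U ρ x (g, h) =
      ∑ c : G ⧸ U, ρ (coresSec U c) (x (coresU U g c, coresU U h (g⁻¹ • c))) := rfl

include hU in
lemma coresFun₁_isLev {x : U → M} (hx : IsLev₁ (L.comap U.subtype) x) :
    IsLev₁ L (coresFun₁ U ρ x) := by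
  obtain ⟨_, ⟨W, hW, rfl⟩, h⟩ := hx
  obtain ⟨V₀, hV₀, hV₀U⟩ := hU
  obtain ⟨V₁, hV₁, hle₁⟩ := L.inf_mem hW hV₀
  obtain ⟨V, hV, hle, hn⟩ := L.exists_normal hV₁
  have hVU : V ≤ U := fun v hv => hV₀U (hle₁ (hle hv)).2
  refine ⟨V, hV, fun g v hv => ?_⟩
  simp only [coresFun₁_apply]
  refine Finset.sum_congr rfl fun c _ => ?_
  rw [coresU_mul, h _ _ (show _ ∈ W from
    (hle₁ (hle (coe_coresU_mem_normal U hn hVU hv _))).1)]

include hU in
lemma coresFun₂_isLev {x : U × U → M} (hx : IsLev₂ (L.comap U.subtype) x) :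
    IsLev₂ L (coresFun₂ U ρ x) := by
  obtain ⟨_, ⟨W, hW, rfl⟩, h⟩ := hx
  obtain ⟨V₀, hV₀, hV₀U⟩ := hU
  obtain ⟨V₁, hV₁, hle₁⟩ := L.inf_mem hW hV₀
  obtain ⟨V, hV, hle, hn⟩ := L.exists_normal hV₁
  have hVU : V ≤ U := fun v hv => hV₀U (hle₁ (hle hv)).2
  refine ⟨V, hV, fun g g' v hv v' hv' => ?_⟩
  simp only [coresFun₂_apply]
  refine Finset.sum_congr rfl fun c _ => ?_
  rw [coresU_mul, coresU_mul, inv_mul_smul_of_mem_normal U hn hVU g hv,
    h _ _ _ (show _ ∈ W from (hle₁ (hle (coe_coresU_mem_normal U hn hVU hv _))).1)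
      _ (show _ ∈ W from (hle₁ (hle (coe_coresU_mem_normal U hn hVU hv' _))).1)]

omit [Fintype (G ⧸ U)] in
lemma rho_coresSec_mul (g : G) (c : G ⧸ U) (m : M) :
    ρ (coresSec U c) (ρ (coresU U g c : G) m) = ρ g (ρ (coresSec U (g⁻¹ • c)) m) := by
  rw [← Module.End.mul_apply, ← map_mul, coresSec_mul_coresU, map_mul, Module.End.mul_apply]

lemma sum_smul_reindex {A : Type*} [AddCommMonoid A] (g : G) (f : G ⧸ U → A) :
    ∑ c : G ⧸ U, f (g⁻¹ • c) = ∑ c : G ⧸ U, f c :=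
  Equiv.sum_comp (MulAction.toPerm (g⁻¹)) f

include hU in
lemma coresFun₁_mem_Z1 {x : U → M} (hx : x ∈ Z1 (L.comap U.subtype) (ρ.comp U.subtype)) :
    coresFun₁ U ρ x ∈ Z1 L ρ := by
  refine ⟨coresFun₁_isLev U ρ L hU hx.1, fun g h => ?_⟩
  simp only [coresFun₁_apply, coresU_mul, hx.2, map_add, MonoidHom.coe_comp, Subgroup.coe_subtype,
    Function.comp_apply, rho_coresSec_mul, Finset.sum_add_distrib, map_sum]
  rw [sum_smul_reindex U g fun c => ρ g (ρ (coresSec U c) (x (coresU U h c)))]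

include hU in
lemma coresFun₂_mem_Z2 {x : U × U → M} (hx : x ∈ Z2 (L.comap U.subtype) (ρ.comp U.subtype)) :
    coresFun₂ U ρ x ∈ Z2 L ρ := by
  refine ⟨coresFun₂_isLev U ρ L hU hx.1, fun g h j => ?_⟩
  simp only [coresFun₂_apply, mul_inv_rev, mul_smul, map_sum]
  rw [← sum_smul_reindex U g fun c => ρ g (ρ (coresSec U c)
      (x (coresU U h c, coresU U j (h⁻¹ • c)))), ← Finset.sum_add_distrib, ← Finset.sum_add_distrib]
  refine Finset.sum_congr rfl fun c _ => ?_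
  rw [← rho_coresSec_mul, coresU_mul, coresU_mul, ← map_add, ← map_add]
  exact congrArg _ (hx.2 (coresU U g c) (coresU U h (g⁻¹ • c)) (coresU U j (h⁻¹ • g⁻¹ • c)))

lemma coresFun₁_dd₀ (m : M) :
    coresFun₁ U ρ (dd₀ (ρ.comp U.subtype) m) = dd₀ ρ (∑ c : G ⧸ U, ρ (coresSec U c) m) := by
  ext g
  simp only [coresFun₁_apply, dd₀_apply, map_sub, MonoidHom.coe_comp, Subgroup.coe_subtype,
    Function.comp_apply, rho_coresSec_mul, Finset.sum_sub_distrib, map_sum]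
  rw [sum_smul_reindex U g fun c => ρ g (ρ (coresSec U c) m)]

lemma coresFun₂_dd₁ (y : U → M) :
    coresFun₂ U ρ (dd₁ (ρ.comp U.subtype) y) = dd₁ ρ (coresFun₁ U ρ y) := by
  ext ⟨g, h⟩
  simp only [coresFun₂_apply, dd₁_apply, coresFun₁_apply, ← coresU_mul, map_add, map_sub,
    MonoidHom.coe_comp, Subgroup.coe_subtype, Function.comp_apply, rho_coresSec_mul,
    Finset.sum_add_distrib, Finset.sum_sub_distrib, map_sum]
  rw [sum_smul_reindex U g fun c => ρ g (ρ (coresSec U c) (y (coresU U h c)))]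

/-- Corestriction in degree `1`. -/
def cores1 : H1c (L.comap U.subtype) (ρ.comp U.subtype) →ₗ[k] H1c L ρ :=
  Submodule.mapQ _ _ ((coresFun₁ U ρ).restrict fun _ hx => coresFun₁_mem_Z1 U ρ L hU hx) <| by
    rintro x ⟨m, hm⟩
    refine ⟨∑ c : G ⧸ U, ρ (coresSec U c) m, ?_⟩
    rw [← coresFun₁_dd₀, hm]
    rfl

/-- Corestriction in degree `2`. -/
def cores2 : H2c (L.comap U.subtype) (ρ.comp U.subtype) →ₗ[k] H2c L ρ :=
  Submodule.mapQ _ _ ((coresFun₂ U ρ).restrict fun _ hx => coresFun₂_mem_Z2 U ρ L hU hx) <| by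
    rintro x ⟨y, hy, hd⟩
    refine ⟨coresFun₁ U ρ y, coresFun₁_isLev U ρ L hU hy, ?_⟩
    rw [← coresFun₂_dd₁, hd]
    rfl

@[simp] lemma cores1_cl1 (x : Z1 (L.comap U.subtype) (ρ.comp U.subtype)) :
    cores1 U ρ L hU (cl1 (L.comap U.subtype) (ρ.comp U.subtype) x) =
      cl1 L ρ ⟨coresFun₁ U ρ x.1, coresFun₁_mem_Z1 U ρ L hU x.2⟩ := rfl

@[simp] lemma cores2_cl2 (x : Z2 (L.comap U.subtype) (ρ.comp U.subtype)) :
    cores2 U ρ L hU (cl2 (L.comap U.subtype) (ρ.comp U.subtype) x) =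
      cl2 L ρ ⟨coresFun₂ U ρ x.1, coresFun₂_mem_Z2 U ρ L hU x.2⟩ := rfl

end

end FermatAgent.Duality
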