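import Fermat.Agent.Duality.Core.Mackey

/-!
# The orbit formula for `res ∘ cores`

For `D, U ≤ G` and representatives `g j` of the `D`-orbits on `G ⧸ U`, the restriction to `D` of a
corestriction from `U` is the sum of the corestrictions from `D ∩ g j U (g j)⁻¹`.
-/

set_option autoImplicit false

namespace FermatAgent.Duality

noncomputable section

variable {k G : Type*} [CommRing k] [Group G] (U D : Subgroup G)

/-- Representatives of the orbits of `D` on `G ⧸ U`. -/
structure OrbitReps (ι : Type*) where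
  rep : ι → G
  exhausts : ∀ c : G ⧸ U, ∃ j, ∃ d ∈ D, c = QuotientGroup.mk (d * rep j)
  inj : ∀ i j, ∀ d ∈ D, (QuotientGroup.mk (d * rep i) : G ⧸ U) = QuotientGroup.mk (rep j) → i = j

variable {U D} {ι : Type*} (R : OrbitReps U D ι)

namespace OrbitReps

/-- The stabiliser in `D` of the coset of `g j`. -/
def stab (j : ι) : Subgroup D :=
  U.comap ((MulAut.conj (R.rep j)⁻¹).toMonoidHom.comp D.subtype)

lemma mem_stab {j : ι} {d : D} : d ∈ R.stab j ↔ (R.rep j)⁻¹ * d * R.rep j ∈ U := by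
  simp [stab]

/-- Conjugation by `g j` from the stabiliser to `U`. -/
def conjHom (j : ι) : R.stab j →* U :=
  (((MulAut.conj (R.rep j)⁻¹).toMonoidHom.comp D.subtype).comp (R.stab j).subtype).codRestrict U
    fun d => d.2

lemma coe_conjHom (j : ι) (d : R.stab j) :
    (R.conjHom j d : G) = (R.rep j)⁻¹ * ((d : D) : G) * R.rep j := by
  simp [conjHom]

lemma isLevHom_conjHom (L : LevelSystem G) (j : ι) :
    IsLevHom ((L.comap D.subtype).comap (R.stab j).subtype) (L.comap U.subtype) (R.conjHom j) := by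
  rintro _ ⟨W, hW, rfl⟩
  obtain ⟨V, hV, hle, hn⟩ := L.exists_normal hW
  refine ⟨_, ⟨_, ⟨V, hV, rfl⟩, rfl⟩, fun d hd => hle ?_⟩
  show ((R.conjHom j d : U) : G) ∈ V
  rw [R.coe_conjHom]
  simpa using hn.conj_mem _ hd (R.rep j)⁻¹

variable {M : Type*} [AddCommGroup M] [Module k M] (ρ : Representation k G M)

lemma isEquivariant_conjHom (j : ι) :
    IsEquivariant (ρ.comp U.subtype) ((ρ.comp D.subtype).comp (R.stab j).subtype) (R.conjHom j)
      (ρ (R.rep j)) := by
  intro d m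
  simp only [MonoidHom.coe_comp, Subgroup.coe_subtype, Function.comp_apply, R.coe_conjHom,
    ← Module.End.mul_apply, ← map_mul]
  congr 2
  group

lemma exists_level_le_stab {L : LevelSystem G} (hU : ∃ V ∈ L.lev, V ≤ U) (j : ι) :
    ∃ V ∈ (L.comap D.subtype).lev, V ≤ R.stab j := by
  obtain ⟨W, hW, hWU⟩ := hU
  obtain ⟨V, hV, hle, hn⟩ := L.exists_normal hW
  exact ⟨_, ⟨V, hV, rfl⟩, fun d hd =>
    R.mem_stab.mpr (hWU (hle (by simpa using hn.conj_mem _ hd (R.rep j)⁻¹)))⟩

/-- The coset of `e g j`, for `e` in `D` modulo the stabiliser. -/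
def toQuot (q : Σ j, D ⧸ R.stab j) : G ⧸ U :=
  QuotientGroup.mk (((coresSec (R.stab q.1) q.2 : D) : G) * R.rep q.1)

lemma toQuot_mk (j : ι) (d : D) :
    R.toQuot ⟨j, QuotientGroup.mk d⟩ = QuotientGroup.mk ((d : G) * R.rep j) := by
  have h : d⁻¹ * coresSec (R.stab j) (QuotientGroup.mk d) ∈ R.stab j := by
    rw [← QuotientGroup.eq, mk_coresSec]
  rw [toQuot, eq_comm, QuotientGroup.eq]
  simpa [mul_assoc] using R.mem_stab.mp h

lemma toQuot_bijective : Function.Bijective R.toQuot := by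
  constructor
  · rintro ⟨i, e⟩ ⟨j, e'⟩ h
    obtain ⟨d, rfl⟩ := QuotientGroup.mk_surjective e
    obtain ⟨d', rfl⟩ := QuotientGroup.mk_surjective e'
    rw [R.toQuot_mk, R.toQuot_mk, QuotientGroup.eq] at h
    obtain rfl : i = j := R.inj i j ((d'⁻¹ * d : D) : G) (d'⁻¹ * d).2 <| by
      rw [QuotientGroup.eq]
      simpa [mul_assoc] using h
    refine Sigma.ext rfl (heq_of_eq ?_)
    rw [QuotientGroup.eq, R.mem_stab]
    simpa [mul_assoc] using h
  · intro c
    obtain ⟨j, d, hd, rfl⟩ := R.exhausts c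
    exact ⟨⟨j, QuotientGroup.mk (⟨d, hd⟩ : D)⟩, R.toQuot_mk j ⟨d, hd⟩⟩

/-- The orbit decomposition of `G ⧸ U`. -/
def quotEquiv : (Σ j, D ⧸ R.stab j) ≃ G ⧸ U := Equiv.ofBijective _ R.toQuot_bijective

lemma smul_toQuot (n : D) (j : ι) (e : D ⧸ R.stab j) :
    (n : G) • R.toQuot ⟨j, e⟩ = R.toQuot ⟨j, n • e⟩ := by
  obtain ⟨d, rfl⟩ := QuotientGroup.mk_surjective e
  rw [MulAction.Quotient.smul_mk, R.toQuot_mk, R.toQuot_mk, MulAction.Quotient.smul_mk]
  simp [mul_assoc]

/-- The change from the chosen section to the section adapted to the orbits. -/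
def shift (c : G ⧸ U) : U :=
  ⟨(coresSec U c)⁻¹ * (((coresSec (R.stab (R.quotEquiv.symm c).1) (R.quotEquiv.symm c).2 : D) : G) *
      R.rep (R.quotEquiv.symm c).1), by
    rw [← QuotientGroup.eq, mk_coresSec]
    exact (R.quotEquiv.apply_symm_apply c).symm⟩

lemma coresSec_mul_shift (q : Σ j, D ⧸ R.stab j) :
    coresSec U (R.toQuot q) * (R.shift (R.toQuot q) : G) =
      ((coresSec (R.stab q.1) q.2 : D) : G) * R.rep q.1 := by
  have h : R.quotEquiv.symm (R.toQuot q) = q := R.quotEquiv.symm_apply_apply q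
  simp only [shift, mul_inv_cancel_left]
  rw [h]

lemma coresU'_shift [Fintype (G ⧸ U)] (n : D) (q : Σ j, D ⧸ R.stab j) :
    coresU' U R.shift (n : G) (R.toQuot q) = R.conjHom q.1 (coresU (R.stab q.1) n q.2) := by
  obtain ⟨j, e⟩ := q
  refine Subtype.ext (mul_left_cancel
    (a := coresSec U (R.toQuot ⟨j, e⟩) * (R.shift (R.toQuot ⟨j, e⟩) : G)) ?_)
  rw [coresSec'_mul_coresU', show (n : G)⁻¹ • R.toQuot ⟨j, e⟩ = R.toQuot ⟨j, n⁻¹ • e⟩ from
      R.smul_toQuot n⁻¹ j e,
    R.coresSec_mul_shift, R.coresSec_mul_shift, R.coe_conjHom]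
  simp only
  rw [← mul_assoc ((n : D) : G), ← Subgroup.coe_mul, ← coresSec_mul_coresU, Subgroup.coe_mul]
  group

section Formula

variable [Fintype (G ⧸ U)] [Fintype ι] [∀ j, Fintype (D ⧸ R.stab j)] (L : LevelSystem G)
  (hU : ∃ V ∈ L.lev, V ≤ U)

lemma coresFun₂'_shift (x : U × U → M) (n m : D) :
    coresFun₂' U ρ R.shift x ((n : G), (m : G)) = ∑ j, coresFun₂ (R.stab j) (ρ.comp D.subtype)
      (fun a => ρ (R.rep j) (x (R.conjHom j a.1, R.conjHom j a.2))) (n, m) := by
  simp only [coresFun₂', coresFun₂_apply]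
  rw [← R.quotEquiv.sum_comp, Fintype.sum_sigma]
  refine Finset.sum_congr rfl fun j _ => Finset.sum_congr rfl fun e _ => ?_
  change ρ (_ * _) (x (coresU' U R.shift (n : G) (R.toQuot ⟨j, e⟩),
    coresU' U R.shift (m : G) ((n : G)⁻¹ • R.toQuot ⟨j, e⟩))) = _
  rw [show (n : G)⁻¹ • R.toQuot ⟨j, e⟩ = R.toQuot ⟨j, n⁻¹ • e⟩ from R.smul_toQuot n⁻¹ j e,
    R.coresU'_shift, R.coresU'_shift, show R.quotEquiv ⟨j, e⟩ = R.toQuot ⟨j, e⟩ from rfl,
    R.coresSec_mul_shift, map_mul, Module.End.mul_apply]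
  rfl

/-- The orbit formula in degree `2`. -/
theorem res2_cores2 (x : H2c (L.comap U.subtype) (ρ.comp U.subtype)) :
    res2 L ρ D (cores2 U ρ L hU x) =
      ∑ j, cores2 (R.stab j) (ρ.comp D.subtype) (L.comap D.subtype)
        (R.exists_level_le_stab hU j)
        (map2 _ _ (R.isLevHom_conjHom L j) (R.isEquivariant_conjHom ρ j) x) := by
  induction x using Submodule.Quotient.induction_on with
  | _ z =>
    change cl2 (L.comap D.subtype) (ρ.comp D.subtype) _ =
      ∑ j, cl2 (L.comap D.subtype) (ρ.comp D.subtype) _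
    rw [← map_sum]
    obtain ⟨y, hy, hd⟩ := coresFun₂'_sub U ρ L R.shift hU z.2
    refine (Submodule.Quotient.eq _).mpr
      ⟨fun n => -y (n : G), (hy.precomp (isLevHom_comap L D.subtype)).comp (fun a => -a),
        funext fun q => ?_⟩
    obtain ⟨n, m⟩ := q
    have h := congrFun hd ((n : G), (m : G))
    rw [Pi.sub_apply, R.coresFun₂'_shift] at h
    simp only [dd₁_apply] at h
    simp only [dd₁_apply, Submodule.subtype_apply, AddSubgroupClass.coe_sub, Pi.sub_apply,
      AddSubmonoidClass.coe_finsetSum, Finset.sum_apply, map_neg, MonoidHom.coe_comp,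
      Subgroup.coe_subtype, Function.comp_apply, Subgroup.coe_mul]
    show _ = coresFun₂ U ρ z.1 ((n : G), (m : G)) - ∑ j, coresFun₂ (R.stab j) (ρ.comp D.subtype)
      (fun a => ρ (R.rep j) (z.1 (R.conjHom j a.1, R.conjHom j a.2))) (n, m)
    linear_combination (norm := abel) -h

end Formula

end OrbitReps

end

end FermatAgent.Duality
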