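import Fermat.Agent.Duality.Core.Coinvariants
import Mathlib.GroupTheory.Sylow
import Mathlib.Algebra.Group.Subgroup.Map

/-!
# Right exactness of `H²` by induction along subgroups of index `p`

It is enough that corestriction be surjective on `H²(·, 𝔽_p)` for every step of index `p` between
`N` and the group.
-/

set_option autoImplicit false

namespace FermatAgent.Duality

noncomputable section

variable {p : ℕ} [Fact p.Prime]

/-- Transport of right exactness along an isomorphism. -/
theorem RightExact2.of_equiv {G G' : Type} [Group G] [Group G'] {L : LevelSystem G}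
    {L' : LevelSystem G'} {N : Subgroup G} {N' : Subgroup G'} (e : G' ≃* G)
    (he : IsLevHom L' L e.toMonoidHom) (he' : IsLevHom L L' e.symm.toMonoidHom)
    (hN : ∀ g, g ∈ N → e.symm g ∈ N') (h : RightExact2 p L N) : RightExact2 p L' N' := by
  intro B C _ _ _ _ _ ρB ρC π hπ hsurj hB x
  have hs : ∀ {M : Type} [AddCommGroup M] [Module (ZMod p) M] (σ : Representation (ZMod p) G' M),
      IsEquivariant σ (σ.comp e.symm.toMonoidHom) e.symm.toMonoidHom LinearMap.id :=
    fun _ _ _ => rfl
  obtain ⟨b, hb⟩ := h (ρB.comp e.symm.toMonoidHom) (ρC.comp e.symm.toMonoidHom) π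
    (fun g m => hπ (e.symm g) m) hsurj (fun g hg m => hB _ (hN g hg) m)
    (map2 (φ := LinearMap.id) ρC _ he' (hs ρC) x)
  have hb' : IsEquivariant (ρB.comp e.symm.toMonoidHom) ρB e.toMonoidHom LinearMap.id :=
    fun g m => by simp
  refine ⟨map2 (φ := LinearMap.id) _ ρB he hb' b, ?_⟩
  have hc' : IsEquivariant (ρC.comp e.symm.toMonoidHom) ρC e.toMonoidHom LinearMap.id :=
    fun g m => by simp
  have e1 : map2 (φ := LinearMap.id) _ ρC he hc'
      (map2 (φ := LinearMap.id) ρC _ he' (hs ρC) x) = x := by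
    induction x using Submodule.Quotient.induction_on with
    | _ z =>
      refine congrArg (cl2 L' ρC) (Subtype.ext (funext fun q => ?_))
      show z.1 (e.symm (e q.1), e.symm (e q.2)) = z.1 q
      simp
  rw [← e1, ← hb]
  induction b using Submodule.Quotient.induction_on with
  | _ z => rfl

variable {G : Type} [Group G] (L : LevelSystem G) (N : Subgroup G) [N.Normal]

omit [N.Normal] in
lemma rightExact2_of_top (hN : N = ⊤) : RightExact2 p L N := by
  intro B C _ _ _ _ _ ρB ρC π hπ hsurj hB x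
  obtain ⟨s, hs⟩ := π.exists_rightInverse_of_surjective (LinearMap.range_eq_top.mpr hsurj)
  have hs' : ∀ c, π (s c) = c := fun c => LinearMap.congr_fun hs c
  have hse : IsEquivariant ρC ρB (MonoidHom.id G) s := fun g c => by
    have hg : g ∈ N := by rw [hN]; exact Subgroup.mem_top g
    rw [MonoidHom.id_apply, hB g hg]
    refine congrArg s ?_
    rw [← hs' c]
    have := hπ g (s c)
    simp only [MonoidHom.id_apply] at this
    rw [← this, hB g hg]
  refine ⟨map2 ρC ρB (isLevHom_id L) hse x, ?_⟩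
  induction x using Submodule.Quotient.induction_on with
  | _ z =>
    refine congrArg (cl2 L ρC) (Subtype.ext (funext fun q => ?_))
    exact hs' _

omit [N.Normal] in
/-- A lift along a line through a subgroup. -/
theorem lineLift_of_subgroup (H : Subgroup G) [Fintype (G ⧸ H)] (hH : ∃ V ∈ L.lev, V ≤ H)
    (hcs : CoresSurjective (p := p) H L hH) (h : RightExact2 p (L.comap H.subtype) (N.subgroupOf H)) :
    LineLift p N L := by
  intro B C _ _ _ _ _ ρB ρC π hπ hsurj hB c hc0 hc hspan y
  let e : ZMod p →ₗ[ZMod p] C := LinearMap.toSpanSingleton (ZMod p) C c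
  have he : IsEquivariant (triv (ZMod p) G) ρC (MonoidHom.id G) e := fun g r => by
    simp [e, hc]
  have hebij : Function.Bijective e := by
    refine ⟨fun r s h => ?_, fun x => ?_⟩
    · simp only [e, LinearMap.toSpanSingleton_apply] at h
      exact smul_left_injective (ZMod p) hc0 h
    · obtain ⟨r, rfl⟩ := hspan x
      exact ⟨r, rfl⟩
  let E := LinearEquiv.ofBijective e hebij
  have hEs : IsEquivariant ρC (triv (ZMod p) G) (MonoidHom.id G) E.symm.toLinearMap := fun g x => by
    obtain ⟨r, rfl⟩ := hebij.2 x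
    show E.symm (ρC g (e r)) = E.symm (e r)
    congr 1
    simp [e, hc]
  obtain ⟨z, hz⟩ := hcs (map2 ρC (triv (ZMod p) G) (isLevHom_id L) hEs y)
  obtain ⟨b, hb⟩ := h (ρB.comp H.subtype) (ρC.comp H.subtype) π (isEquivariant_sub H hπ) hsurj
    (fun g hg m => hB (g : G) hg m) (map2 _ _ (isLevHom_id _) (isEquivariant_sub H he) z)
  refine ⟨cores2 H ρB L hH b, ?_⟩
  rw [← cores2_map2 H L hH hπ, hb, cores2_map2 H L hH he, hz]
  induction y using Submodule.Quotient.induction_on with
  | _ w =>
    refine congrArg (cl2 L ρC) (Subtype.ext (funext fun q => ?_))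
    exact E.apply_symm_apply _

/-- Induction along subgroups of index `p`. -/
theorem rightExact2_sub {G : Type} [Group G] (L : LevelSystem G) (N U : Subgroup G) (hNU : N ≤ U)
    [(N.subgroupOf U).Normal] (hlev : ∃ V ∈ L.lev, V ⊓ U ≤ N)
    (hp : IsPGroup p (U ⧸ N.subgroupOf U))
    (hstep : ∀ (H H' : Subgroup G) (_ : N ≤ H') (_ : H' ≤ H) (_ : H ≤ U)
      (_ : (H'.subgroupOf H).Normal) (_ : H'.relIndex H = p) [Fintype (H ⧸ H'.subgroupOf H)]
      (hl : ∃ V ∈ (L.comap H.subtype).lev, V ≤ H'.subgroupOf H),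
      CoresSurjective (p := p) (H'.subgroupOf H) (L.comap H.subtype) hl) :
    RightExact2 p (L.comap U.subtype) (N.subgroupOf U) := by
  induction h : N.relIndex U using Nat.strong_induction_on generalizing U with
  | _ n ih =>
  have hp' := (Fact.out : p.Prime)
  obtain ⟨V, hV, hVN⟩ := hlev
  have hlN : ∃ W ∈ (L.comap U.subtype).lev, W ≤ N.subgroupOf U :=
    ⟨_, ⟨V, hV, rfl⟩, fun x hx => hVN ⟨hx, x.2⟩⟩
  have : (N.subgroupOf U).FiniteIndex := by
    obtain ⟨W, hW, hle⟩ := hlN
    have := (L.comap U.subtype).finiteIndex hW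
    exact Subgroup.finiteIndex_of_le hle
  have : Finite (U ⧸ N.subgroupOf U) := Subgroup.finite_quotient_of_finiteIndex
  obtain ⟨m, hm⟩ := IsPGroup.iff_card.mp hp
  cases m with
  | zero =>
    refine rightExact2_of_top _ _ ?_
    rw [← Subgroup.index_eq_one, Subgroup.index_eq_card, hm, pow_zero]
  | succ m =>
    obtain ⟨K, hK⟩ := Sylow.exists_subgroup_card_pow_prime (G := U ⧸ N.subgroupOf U) p
      (n := m) (by rw [hm]; exact pow_dvd_pow p (Nat.le_succ m))
    have hKidx : K.index = p := by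
      have h1 := K.card_mul_index
      rw [hK, hm, pow_succ] at h1
      exact Nat.eq_of_mul_eq_mul_left (pow_pos hp'.pos m) h1
    have hKn : K.Normal := by
      refine Subgroup.normal_of_index_eq_minFac_card ?_
      rw [hKidx, hm, Nat.pow_minFac (Nat.succ_ne_zero m), hp'.minFac_eq]
    let H' : Subgroup G := (K.comap (QuotientGroup.mk' (N.subgroupOf U))).map U.subtype
    have hH'U : H' ≤ U := Subgroup.map_subtype_le _
    have hsub : H'.subgroupOf U = K.comap (QuotientGroup.mk' (N.subgroupOf U)) :=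
      Subgroup.comap_map_eq_self_of_injective U.subtype_injective _
    have hNH' : N ≤ H' := fun x hx => by
      refine ⟨⟨x, hNU hx⟩, ?_, rfl⟩
      show ((⟨x, hNU hx⟩ : U) : U ⧸ N.subgroupOf U) ∈ K
      have h1 : ((⟨x, hNU hx⟩ : U) : U ⧸ N.subgroupOf U) = 1 :=
        (QuotientGroup.eq_one_iff _).mpr hx
      rw [h1]
      exact K.one_mem
    have hidx : H'.relIndex U = p := by
      rw [Subgroup.relIndex, hsub, Subgroup.index_comap_of_surjective _
        (QuotientGroup.mk'_surjective _), hKidx]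
    have hnorm : (H'.subgroupOf U).Normal := by rw [hsub]; exact hKn.comap _
    have hmul := Subgroup.relIndex_mul_relIndex N H' U hNH' hH'U
    rw [hidx, h] at hmul
    have hn0 : n ≠ 0 := h ▸ Nat.card_pos.ne'
    have hlt : N.relIndex H' < n := by
      rcases Nat.eq_zero_or_pos (N.relIndex H') with h0 | h0
      · rw [h0, zero_mul] at hmul
        exact absurd hmul.symm hn0
      · rw [← hmul]
        exact lt_mul_of_one_lt_right h0 hp'.one_lt
    have hnN : (N.subgroupOf H').Normal := by
      have h1 := (inferInstance : (N.subgroupOf U).Normal)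
      refine ⟨fun x hx g => ?_⟩
      exact h1.conj_mem ⟨x.1, hH'U x.2⟩ hx ⟨g.1, hH'U g.2⟩
    have hp2 : IsPGroup p (H' ⧸ N.subgroupOf H') := by
      have hd : N.relIndex H' ∣ p ^ (m + 1) := by
        rw [← hm, show Nat.card (U ⧸ N.subgroupOf U) = n from h, ← hmul]
        exact dvd_mul_right _ _
      obtain ⟨j, _, hj⟩ := (Nat.dvd_prime_pow hp').mp hd
      exact IsPGroup.of_card hj
    have hind := ih _ hlt H' hNH' (hlev := ⟨V, hV, fun x hx => hVN ⟨hx.1, hH'U hx.2⟩⟩) hp2
      (fun H H'' h1 h2 h3 => hstep H H'' h1 h2 (h3.trans hH'U)) rfl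
    have : (H'.subgroupOf U).FiniteIndex :=
      ⟨by rw [← Subgroup.relIndex, hidx]; exact hp'.ne_zero⟩
    let : Fintype (U ⧸ H'.subgroupOf U) := Subgroup.fintypeQuotientOfFiniteIndex
    let : Fintype (U ⧸ N.subgroupOf U) := Fintype.ofFinite _
    have hl : ∃ W ∈ (L.comap U.subtype).lev, W ≤ H'.subgroupOf U :=
      ⟨_, ⟨V, hV, rfl⟩, fun x hx => hNH' (hVN ⟨hx, x.2⟩)⟩
    have hcs := hstep U H' hNH' hH'U le_rfl hnorm hidx hl
    have hsubRE : RightExact2 p ((L.comap U.subtype).comap (H'.subgroupOf U).subtype)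
        ((N.subgroupOf U).subgroupOf (H'.subgroupOf U)) := by
      refine RightExact2.of_equiv (Subgroup.subgroupOfEquivOfLe hH'U) ?_ ?_ ?_ hind
      · rintro _ ⟨W, hW, rfl⟩
        exact ⟨_, ⟨_, ⟨W, hW, rfl⟩, rfl⟩, fun x hx => hx⟩
      · rintro _ ⟨_, ⟨W, hW, rfl⟩, rfl⟩
        exact ⟨_, ⟨W, hW, rfl⟩, fun x hx => hx⟩
      · exact fun g hg => hg
    intro B C _ _ _ _ _ ρB ρC π hπ hsurj hB
    exact p2_surjective _ hp _ hlN
      (lineLift_of_subgroup _ _ _ hl hcs hsubRE) hπ hsurj hB

end

end FermatAgent.Duality
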