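import Fermat.Agent.Duality.Core.Twist

/-!
# Shapiro's lemma in degrees `≤ 2` and invariance of corestriction under conjugation

The induced module is `G ⧸ U → M` with `(g φ) c = g • φ (g⁻¹ c)`, for a representation `M` of `G`.
-/

set_option autoImplicit false

namespace FermatAgent.Duality

open scoped Classical

noncomputable section

variable {k G : Type*} [CommRing k] [Group G] (U : Subgroup G)
variable {M : Type*} [AddCommGroup M] [Module k M] (ρ : Representation k G M)

/-- The representation on `G ⧸ U → M`. -/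
def indRep : Representation k G (G ⧸ U → M) where
  toFun g :=
    { toFun := fun φ c => ρ g (φ (g⁻¹ • c))
      map_add' := fun a b => by ext c; simp
      map_smul' := fun r a => by ext c; simp }
  map_one' := by ext φ c; simp
  map_mul' g h := by ext φ c; simp [mul_smul]

@[simp] lemma indRep_apply (g : G) (φ : G ⧸ U → M) (c : G ⧸ U) :
    indRep U ρ g φ c = ρ g (φ (g⁻¹ • c)) := rfl

/-- The trivial coset. -/
abbrev baseCoset : G ⧸ U := QuotientGroup.mk 1

lemma smul_baseCoset (g : G) : g • baseCoset U = QuotientGroup.mk g := by simp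

lemma smul_baseCoset_of_mem (u : U) : (u : G) • baseCoset U = baseCoset U := by
  rw [smul_baseCoset, QuotientGroup.eq]
  simp

/-- Evaluation at the trivial coset. -/
def indEval : (G ⧸ U → M) →ₗ[k] M := LinearMap.proj (baseCoset U)

/-- Extension by zero from the trivial coset. -/
def indSingle : M →ₗ[k] (G ⧸ U → M) := LinearMap.single k (fun _ => M) (baseCoset U)

/-- The sum over all cosets. -/
def indSum [Fintype (G ⧸ U)] : (G ⧸ U → M) →ₗ[k] M := ∑ c, LinearMap.proj c

lemma isEquivariant_indEval :
    IsEquivariant ((indRep U ρ).comp U.subtype) (ρ.comp U.subtype) (MonoidHom.id U)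
      (indEval U : (G ⧸ U → M) →ₗ[k] M) := by
  intro u φ
  show ρ u (φ ((u : G)⁻¹ • baseCoset U)) = ρ u (φ (baseCoset U))
  rw [← Subgroup.coe_inv, smul_baseCoset_of_mem]

lemma indRep_single (g : G) (c : G ⧸ U) (m : M) :
    indRep U ρ g (Pi.single c m) = Pi.single (g • c) (ρ g m) := by
  ext d
  rw [indRep_apply, Pi.single_apply, Pi.single_apply]
  by_cases h : d = g • c
  · simp [h]
  · rw [if_neg h, if_neg (fun e => h (by rw [← e, smul_inv_smul])), map_zero]

lemma isEquivariant_indSingle :
    IsEquivariant (ρ.comp U.subtype) ((indRep U ρ).comp U.subtype) (MonoidHom.id U)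
      (indSingle U : M →ₗ[k] (G ⧸ U → M)) := by
  intro u m
  show Pi.single (baseCoset U) (ρ u m) = indRep U ρ u (Pi.single (baseCoset U) m)
  rw [indRep_single, smul_baseCoset_of_mem]

variable [Fintype (G ⧸ U)]

lemma isEquivariant_indSum :
    IsEquivariant (indRep U ρ) ρ (MonoidHom.id G) (indSum U : (G ⧸ U → M) →ₗ[k] M) := by
  intro g φ
  simp only [indSum, LinearMap.sum_apply, LinearMap.proj_apply, MonoidHom.id_apply, indRep_apply,
    map_sum]
  exact sum_smul_reindex U g fun c => ρ g (φ c)

lemma indSum_comp_indSingle :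
    (indSum U : (G ⧸ U → M) →ₗ[k] M) ∘ₗ indSingle U = LinearMap.id := by
  ext m
  simp [indSum, indSingle]

lemma indSum_surjective : Function.Surjective (indSum U : (G ⧸ U → M) →ₗ[k] M) :=
  fun m => ⟨indSingle U m, LinearMap.congr_fun (indSum_comp_indSingle U) m⟩

omit [Fintype (G ⧸ U)] in
lemma coresSec_smul_baseCoset (c : G ⧸ U) : coresSec U c • baseCoset U = c := by
  rw [smul_baseCoset, mk_coresSec]

lemma normMap_indSingle_indEval :
    normMap U (indRep U ρ) (indRep U ρ) (indSingle U ∘ₗ indEval U) =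
      (LinearMap.id : (G ⧸ U → M) →ₗ[k] (G ⧸ U → M)) := by
  refine LinearMap.ext fun φ => ?_
  rw [normMap_apply, LinearMap.id_apply]
  refine Eq.trans (Finset.sum_congr rfl fun c _ => ?_) (Finset.univ_sum_single φ)
  show indRep U ρ (coresSec U c) (Pi.single (baseCoset U) _) = _
  rw [indRep_single, coresSec_smul_baseCoset]
  congr 1
  show ρ (coresSec U c) (ρ (coresSec U c)⁻¹ (φ ((coresSec U c)⁻¹⁻¹ • baseCoset U))) = φ c
  rw [inv_inv, coresSec_smul_baseCoset, ← Module.End.mul_apply, ← map_mul]
  simp

omit [Fintype (G ⧸ U)] in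
lemma isEquivariant_single_eval :
    IsEquivariant ((indRep U ρ).comp U.subtype) ((indRep U ρ).comp U.subtype) (MonoidHom.id U)
      (indSingle U ∘ₗ indEval U : (G ⧸ U → M) →ₗ[k] (G ⧸ U → M)) := fun u φ => by
  rw [LinearMap.comp_apply, LinearMap.comp_apply, MonoidHom.id_apply]
  exact (congrArg (indSingle U) (isEquivariant_indEval U ρ u φ)).trans
    (isEquivariant_indSingle U ρ u _)

variable (L : LevelSystem G) (hU : ∃ V ∈ L.lev, V ≤ U)

/-- Shapiro's map in degree `1`. -/
def shapiro1 : H1c L (indRep U ρ) →ₗ[k] H1c (L.comap U.subtype) (ρ.comp U.subtype) :=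
  map1 _ _ (isLevHom_id _) (isEquivariant_indEval U ρ) ∘ₗ res1 L (indRep U ρ) U

/-- Shapiro's map in degree `2`. -/
def shapiro2 : H2c L (indRep U ρ) →ₗ[k] H2c (L.comap U.subtype) (ρ.comp U.subtype) :=
  map2 _ _ (isLevHom_id _) (isEquivariant_indEval U ρ) ∘ₗ res2 L (indRep U ρ) U

/-- The inverse of Shapiro's map in degree `1`. -/
def shapiroInv1 : H1c (L.comap U.subtype) (ρ.comp U.subtype) →ₗ[k] H1c L (indRep U ρ) :=
  cores1 U (indRep U ρ) L hU ∘ₗ map1 _ _ (isLevHom_id _) (isEquivariant_indSingle U ρ)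

/-- The inverse of Shapiro's map in degree `2`. -/
def shapiroInv2 : H2c (L.comap U.subtype) (ρ.comp U.subtype) →ₗ[k] H2c L (indRep U ρ) :=
  cores2 U (indRep U ρ) L hU ∘ₗ map2 _ _ (isLevHom_id _) (isEquivariant_indSingle U ρ)

lemma shapiroInv1_shapiro1 (x : H1c L (indRep U ρ)) :
    shapiroInv1 U ρ L hU (shapiro1 U ρ L x) = x := by
  have h := cores1_map1_res1 U (indRep U ρ) (indRep U ρ) (isEquivariant_single_eval U ρ) L hU x
  induction x using Submodule.Quotient.induction_on with
  | _ z =>
    refine Eq.trans h ?_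
    refine congrArg (cl1 L (indRep U ρ)) (Subtype.ext (funext fun g => ?_))
    show normMap U _ _ _ (z.1 g) = z.1 g
    rw [normMap_indSingle_indEval, LinearMap.id_apply]

lemma shapiroInv2_shapiro2 (x : H2c L (indRep U ρ)) :
    shapiroInv2 U ρ L hU (shapiro2 U ρ L x) = x := by
  have h := cores2_map2_res2 U (indRep U ρ) (indRep U ρ) (isEquivariant_single_eval U ρ) L hU x
  induction x using Submodule.Quotient.induction_on with
  | _ z =>
    refine Eq.trans h ?_
    refine congrArg (cl2 L (indRep U ρ)) (Subtype.ext (funext fun g => ?_))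
    show normMap U _ _ _ (z.1 g) = z.1 g
    rw [normMap_indSingle_indEval, LinearMap.id_apply]

lemma cores2_eq_indSum (x : H2c (L.comap U.subtype) (ρ.comp U.subtype)) :
    map2 _ _ (isLevHom_id L) (isEquivariant_indSum U ρ) (shapiroInv2 U ρ L hU x) =
      cores2 U ρ L hU x := by
  rw [shapiroInv2, LinearMap.comp_apply, ← cores2_map2 U L hU (isEquivariant_indSum U ρ)]
  induction x using Submodule.Quotient.induction_on with
  | _ z =>
    exact congrArg (cores2 U ρ L hU) (congrArg (cl2 (L.comap U.subtype) (ρ.comp U.subtype)) (Subtype.ext (funext fun g =>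
      LinearMap.congr_fun (indSum_comp_indSingle U) (z.1 g))))

omit [Fintype (G ⧸ U)] in
lemma coresU_baseCoset (u : U) :
    coresSec U (baseCoset U) * (coresU U (u : G) (baseCoset U) : G) =
      (u : G) * coresSec U (baseCoset U) := by
  rw [coresSec_mul_coresU, ← Subgroup.coe_inv, smul_baseCoset_of_mem]

omit [Fintype (G ⧸ U)] in
lemma coresSec_baseCoset_mem : coresSec U (baseCoset U) ∈ U := by
  simpa using QuotientGroup.eq.mp (mk_coresSec U (baseCoset U)).symm

/-- The element `s(1)` of `U`. -/
def secBase : U := ⟨coresSec U (baseCoset U), coresSec_baseCoset_mem U⟩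

omit [Fintype (G ⧸ U)] in
lemma indEval_rho_indSingle (g : G) (_c : G ⧸ U) (m : M) :
    indEval (k := k) U (indRep U ρ g (indSingle (k := k) U m)) =
      if g • baseCoset U = baseCoset U then ρ g m else 0 := by
  show indRep U ρ g (Pi.single (baseCoset U) m) (baseCoset U) = _
  rw [indRep_single, Pi.single_apply]
  simp only [eq_comm]

lemma indEval_coresFun_sum (f : G ⧸ U → M) :
    indEval (k := k) U (∑ c, indRep U ρ (coresSec U c) (indSingle (k := k) U (f c))) =
      ρ (coresSec U (baseCoset U)) (f (baseCoset U)) := by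
  rw [map_sum, Finset.sum_eq_single (baseCoset U)]
  · rw [indEval_rho_indSingle U ρ _ (baseCoset U), if_pos (coresSec_smul_baseCoset U _)]
  · intro c _ hc
    rw [indEval_rho_indSingle U ρ _ c, if_neg]
    rwa [coresSec_smul_baseCoset]
  · simp

lemma shapiro1_shapiroInv1 (y : H1c (L.comap U.subtype) (ρ.comp U.subtype)) :
    shapiro1 U ρ L (shapiroInv1 U ρ L hU y) = y := by
  induction y using Submodule.Quotient.induction_on with
  | _ z =>
    refine (Submodule.Quotient.eq _).mpr ⟨z.1 (secBase U), funext fun u => ?_⟩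
    show dd₀ (ρ.comp U.subtype) _ u = indEval (k := k) U (coresFun₁ U (indRep U ρ)
      (fun a => indSingle (k := k) U (z.1 a)) (u : G)) - z.1 u
    have h : secBase U * coresU U (u : G) (baseCoset U) = u * secBase U :=
      Subtype.ext (coresU_baseCoset U u)
    have h1 := z.2.2 (secBase U) (coresU U (u : G) (baseCoset U))
    rw [h, z.2.2] at h1
    simp only [MonoidHom.coe_comp, Subgroup.coe_subtype, Function.comp_apply] at h1
    rw [coresFun₁_apply, indEval_coresFun_sum U ρ, dd₀_apply]
    simp only [MonoidHom.coe_comp, Subgroup.coe_subtype, Function.comp_apply]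
    show _ = ρ ((secBase U : U) : G) (z.1 _) - z.1 u
    linear_combination (norm := abel) h1

lemma shapiro2_shapiroInv2 (y : H2c (L.comap U.subtype) (ρ.comp U.subtype)) :
    shapiro2 U ρ L (shapiroInv2 U ρ L hU y) = y := by
  induction y using Submodule.Quotient.induction_on with
  | _ z =>
    set s := secBase U with hs
    let w : U → U := fun u => coresU U (u : G) (baseCoset U)
    have hw : ∀ u, s * w u = u * s := fun u => Subtype.ext (coresU_baseCoset U u)
    let ζ : U → M := fun u => z.1 (u, s) - z.1 (s, w u)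
    have hζ : IsLev₁ (L.comap U.subtype) ζ := by
      obtain ⟨_, ⟨W, hW, rfl⟩, h⟩ := z.2.1
      obtain ⟨V, hV, hle, hn⟩ := L.exists_normal hW
      refine ⟨_, ⟨V, hV, rfl⟩, fun u v hv => ?_⟩
      have hwv : w (u * v) = w u * (s⁻¹ * v * s) := by
        refine mul_left_cancel (a := s) ?_
        rw [← mul_assoc s, hw, hw]
        group
      have e1 := h u s v (hle hv) 1 (one_mem _)
      have e2 := h s (w u) 1 (one_mem _) (s⁻¹ * v * s)
        (hle (by simpa using hn.conj_mem _ hv ((s : G))⁻¹))
      simp only [mul_one] at e1 e2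
      simp only [ζ, hwv, e1, e2]
    refine (Submodule.Quotient.eq _).mpr
      ⟨fun u => -ζ u, hζ.comp (fun a => -a), funext fun q => ?_⟩
    obtain ⟨u, v⟩ := q
    show dd₁ (ρ.comp U.subtype) _ (u, v) = indEval (k := k) U (coresFun₂ U (indRep U ρ)
      (fun a => indSingle (k := k) U (z.1 a)) ((u : G), (v : G))) - z.1 (u, v)
    rw [coresFun₂_apply, indEval_coresFun_sum U ρ,
      show (u : G)⁻¹ • baseCoset U = baseCoset U by rw [← Subgroup.coe_inv, smul_baseCoset_of_mem]]
    show _ = ρ ((s : U) : G) (z.1 (w u, w v)) - z.1 (u, v)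
    have hwm : w (u * v) = w u * w v := by
      refine mul_left_cancel (a := s) ?_
      rw [← mul_assoc s, hw, hw, mul_assoc u s, hw, mul_assoc]
    have hc := z.2.2
    simp only [MonoidHom.coe_comp, Subgroup.coe_subtype, Function.comp_apply] at hc
    have h1 := hc s (w u) (w v)
    have h2 := hc u s (w v)
    have h3 := hc u v s
    rw [hw, ← hwm] at h1
    rw [hw] at h2
    simp only [dd₁_apply, ζ, MonoidHom.coe_comp, Subgroup.coe_subtype, Function.comp_apply,
      map_sub, map_neg]
    linear_combination (norm := abel) h1 - h2 + h3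

lemma shapiro1_bijective (hU : ∃ V ∈ L.lev, V ≤ U) : Function.Bijective (shapiro1 U ρ L) :=
  Function.bijective_iff_has_inverse.mpr ⟨shapiroInv1 U ρ L hU,
    shapiroInv1_shapiro1 U ρ L hU, shapiro1_shapiroInv1 U ρ L hU⟩

lemma shapiro2_bijective (hU : ∃ V ∈ L.lev, V ≤ U) : Function.Bijective (shapiro2 U ρ L) :=
  Function.bijective_iff_has_inverse.mpr ⟨shapiroInv2 U ρ L hU,
    shapiroInv2_shapiro2 U ρ L hU, shapiro2_shapiroInv2 U ρ L hU⟩

omit [Fintype (G ⧸ U)] in
/-- Shapiro's lemma in degree `0`. -/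
def shapiro0 : (indRep U ρ).invariants →ₗ[k] Representation.invariants (ρ.comp U.subtype) :=
  ((indEval U).comp (indRep U ρ).invariants.subtype).codRestrict _ fun φ u => by
    show ρ (u : G) (φ.1 (baseCoset U)) = φ.1 (baseCoset U)
    have h := congrFun (φ.2 (u : G)) (baseCoset U)
    rwa [indRep_apply, ← Subgroup.coe_inv, smul_baseCoset_of_mem] at h

omit [Fintype (G ⧸ U)] in
lemma shapiro0_bijective : Function.Bijective (shapiro0 U ρ) := by
  constructor
  · intro φ ψ h
    have h0 : φ.1 (baseCoset U) = ψ.1 (baseCoset U) := congrArg Subtype.val h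
    refine Subtype.ext (funext fun c => ?_)
    rw [← congrFun (φ.2 (coresSec U c)) c, ← congrFun (ψ.2 (coresSec U c)) c, indRep_apply,
      indRep_apply, show (coresSec U c)⁻¹ • c = baseCoset U by
        rw [inv_smul_eq_iff, coresSec_smul_baseCoset], h0]
  · intro m
    refine ⟨⟨fun c => ρ (coresSec U c) m.1, fun g => funext fun c => ?_⟩, Subtype.ext ?_⟩
    · rw [indRep_apply, ← rho_coresSec_mul]
      exact congrArg _ (m.2 (coresU U g c))
    · exact m.2 (secBase U)

end

end FermatAgent.Duality
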