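import Fermat.Agent.Duality.Core.Projection

/-!
# `cores ∘ φ ∘ res` for a map of coefficients equivariant only on the subgroup
-/

set_option autoImplicit false

namespace FermatAgent.Duality

noncomputable section

variable {k G : Type*} [CommRing k] [Group G] (U : Subgroup G) [Fintype (G ⧸ U)]
variable {M N : Type*} [AddCommGroup M] [Module k M] [AddCommGroup N] [Module k N]
variable (ρ : Representation k G M) (σ : Representation k G N) {φ : M →ₗ[k] N}
variable (hφ : IsEquivariant (ρ.comp U.subtype) (σ.comp U.subtype) (MonoidHom.id U) φ)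
variable (L : LevelSystem G) (hU : ∃ V ∈ L.lev, V ≤ U)

/-- The translate of `φ` by the coset `c`. -/
def cosetConj (φ : M →ₗ[k] N) (c : G ⧸ U) : M →ₗ[k] N :=
  σ (coresSec U c) ∘ₗ φ ∘ₗ ρ (coresSec U c)⁻¹

/-- The relative norm of `φ`. -/
def normMap (φ : M →ₗ[k] N) : M →ₗ[k] N := ∑ c : G ⧸ U, cosetConj U ρ σ φ c

lemma normMap_apply (φ : M →ₗ[k] N) (m : M) :
    normMap U ρ σ φ m = ∑ c : G ⧸ U, σ (coresSec U c) (φ (ρ (coresSec U c)⁻¹ m)) := by
  simp [normMap, cosetConj]

omit [Fintype (G ⧸ U)] in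
lemma cosetConj_apply_rho (c : G ⧸ U) (m : M) :
    cosetConj U ρ σ φ c (ρ (coresSec U c) m) = σ (coresSec U c) (φ m) := by
  simp [cosetConj, ← Module.End.mul_apply, ← map_mul]

include hφ in
omit [Fintype (G ⧸ U)] in
lemma cosetConj_rho (g : G) (c : G ⧸ U) (m : M) :
    cosetConj U ρ σ φ c (ρ g m) = σ g (cosetConj U ρ σ φ (g⁻¹ • c) m) := by
  simp only [cosetConj, LinearMap.comp_apply, ← Module.End.mul_apply, ← map_mul]
  rw [← coresSec_mul_coresU]
  simp only [map_mul, Module.End.mul_apply]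
  refine congrArg _ ?_
  have h := hφ (coresU U g c) (ρ (coresSec U (g⁻¹ • c))⁻¹ m)
  simp only [MonoidHom.id_apply, MonoidHom.coe_comp, Subgroup.coe_subtype,
    Function.comp_apply] at h
  rw [← h]
  simp only [← Module.End.mul_apply, ← map_mul]
  refine congrArg φ (congrArg (fun y => ρ y m) ?_)
  rw [coresU]
  group

include hφ in
lemma isEquivariant_normMap : IsEquivariant ρ σ (MonoidHom.id G) (normMap U ρ σ φ) := by
  intro g m
  simp only [normMap, LinearMap.sum_apply, MonoidHom.id_apply, cosetConj_rho U ρ σ hφ, map_sum]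
  exact sum_smul_reindex U g fun c => σ g (cosetConj U ρ σ φ c m)

/-- `cores ∘ φ ∘ res` is the norm of `φ`, in degree `1`. -/
theorem cores1_map1_res1 (x : H1c L ρ) :
    cores1 U σ L hU (map1 (ρ.comp U.subtype) (σ.comp U.subtype) (isLevHom_id _) hφ
        (res1 L ρ U x)) =
      map1 ρ σ (isLevHom_id L) (isEquivariant_normMap U ρ σ hφ) x := by
  induction x using Submodule.Quotient.induction_on with
  | _ z =>
    refine (Submodule.Quotient.eq _).mpr
      ⟨∑ c : G ⧸ U, cosetConj U ρ σ φ c (z.1 (coresSec U c)), funext fun g => ?_⟩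
    show dd₀ σ _ g = coresFun₁ U σ (fun a => φ (z.1 (a : G))) g - normMap U ρ σ φ (z.1 g)
    have key : ∀ c : G ⧸ U, σ (coresSec U c) (φ (z.1 (coresU U g c : G))) =
        σ g (cosetConj U ρ σ φ (g⁻¹ • c) (z.1 (coresSec U (g⁻¹ • c)))) +
          cosetConj U ρ σ φ c (z.1 g) - cosetConj U ρ σ φ c (z.1 (coresSec U c)) := fun c => by
      rw [← cosetConj_apply_rho U ρ σ c, ← cosetConj_rho U ρ σ hφ, ← map_add, ← map_sub]
      refine congrArg _ ?_
      rw [eq_sub_iff_add_eq, ← z.2.2, ← z.2.2, coresSec_mul_coresU]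
    simp only [coresFun₁_apply, key, dd₀_apply, map_sum, normMap, LinearMap.sum_apply,
      Finset.sum_add_distrib, Finset.sum_sub_distrib]
    rw [sum_smul_reindex U g fun c => σ g (cosetConj U ρ σ φ c (z.1 (coresSec U c)))]
    abel

/-- `cores ∘ φ ∘ res` is the norm of `φ`, in degree `2`. -/
theorem cores2_map2_res2 (x : H2c L ρ) :
    cores2 U σ L hU (map2 (ρ.comp U.subtype) (σ.comp U.subtype) (isLevHom_id _) hφ
        (res2 L ρ U x)) =
      map2 ρ σ (isLevHom_id L) (isEquivariant_normMap U ρ σ hφ) x := by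
  induction x using Submodule.Quotient.induction_on with
  | _ z =>
    set f := z.1 with hf
    let ζ : G → G ⧸ U → M := fun g c =>
      f (g, coresSec U (g⁻¹ • c)) - f (coresSec U c, (coresU U g c : G))
    let y : G → N := fun g => ∑ c : G ⧸ U, cosetConj U ρ σ φ c (ζ g c)
    have hy : IsLev₁ L y := by
      obtain ⟨W, hW, h⟩ := z.2.1
      obtain ⟨V₀, hV₀, hV₀U⟩ := hU
      obtain ⟨V₁, hV₁, hle₁⟩ := L.inf_mem hW hV₀
      obtain ⟨V, hV, hle, hn⟩ := L.exists_normal hV₁
      have hVU : V ≤ U := fun v hv => hV₀U (hle₁ (hle hv)).2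
      refine ⟨V, hV, fun g v hv => Finset.sum_congr rfl fun c _ => congrArg _ ?_⟩
      have e1 := h g (coresSec U (g⁻¹ • c)) v (hle₁ (hle hv)).1 1 W.one_mem
      have e2 := h (coresSec U c) (coresU U g c : G) 1 W.one_mem _
        (hle₁ (hle (coe_coresU_mem_normal U hn hVU hv (g⁻¹ • c)))).1
      rw [mul_one] at e1 e2
      rw [← hf] at e1 e2
      simp only [ζ]
      rw [inv_mul_smul_of_mem_normal U hn hVU g hv, coresU_mul, Subgroup.coe_mul, e1, e2]
    refine (Submodule.Quotient.eq _).mpr ⟨-y, hy.comp (fun a => -a), funext fun q => ?_⟩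
    obtain ⟨g, h⟩ := q
    change dd₁ σ (-y) (g, h) =
      coresFun₂ U σ (fun a => φ (f ((a.1 : G), (a.2 : G)))) (g, h) -
        normMap U ρ σ φ (f (g, h))
    have hc := z.2.2
    rw [← hf] at hc
    have key : ∀ c : G ⧸ U,
        σ (coresSec U c) (φ (f ((coresU U g c : G), (coresU U h (g⁻¹ • c) : G)))) =
          cosetConj U ρ σ φ c (f (g, h)) -
            (σ g (cosetConj U ρ σ φ (g⁻¹ • c) (ζ h (g⁻¹ • c))) -
              cosetConj U ρ σ φ c (ζ (g * h) c) + cosetConj U ρ σ φ c (ζ g c)) := fun c => by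
      rw [← cosetConj_apply_rho U ρ σ c, ← cosetConj_rho U ρ σ hφ, ← map_sub, ← map_add,
        ← map_sub]
      refine congrArg _ ?_
      have h1 := hc (coresSec U c) (coresU U g c : G) (coresU U h (g⁻¹ • c) : G)
      have h2 := hc g (coresSec U (g⁻¹ • c)) (coresU U h (g⁻¹ • c) : G)
      have h3 := hc g h (coresSec U (h⁻¹ • g⁻¹ • c))
      rw [coresSec_mul_coresU] at h1
      rw [coresSec_mul_coresU] at h2
      simp only [ζ, coresU_mul, Subgroup.coe_mul, mul_inv_rev, mul_smul, map_sub]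
      linear_combination (norm := abel) -h1 + h2 - h3
    simp only [coresFun₂_apply, key, dd₁_apply, Pi.neg_apply, map_neg, y, map_sum, normMap,
      LinearMap.sum_apply, Finset.sum_add_distrib, Finset.sum_sub_distrib]
    rw [sum_smul_reindex U g fun c => σ g (cosetConj U ρ σ φ c (ζ h c))]
    abel

end

end FermatAgent.Duality
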